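import Fermat.Agent.S51.Doubling

/-!
# S51 helpers: `3`-torsion of a Weierstrass curve

* `three_nsmul_some_eq_zero_iff` : `3 • (x, y) = 0 ↔ ψ₃(x) = 0` (nonsingular point, char `≠ 2`).
* `finite_and_ncard_le_of_forall_eval_eq_zero` : a set of points whose `x`-coordinates are roots of
  a nonzero polynomial `p` is finite of cardinality `≤ 2 deg p + 1`.
* `exists_three_torsion` : existence of a nonzero `3`-torsion point (alg. closed, `Δ ≠ 0`).
* `three_torsion_finite` : the `3`-torsion is finite with at most `9` points.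
-/

set_option autoImplicit false

open WeierstrassCurve WeierstrassCurve.Affine Polynomial

namespace Fermat.Agent.S51

section A
variable {F : Type*} [Field F] {W : Affine F}

lemma psi3_eq_neg_sq_of_Y_eq (h2 : (2 : F) ≠ 0) {x y : F} (h : W.Equation x y)
    (hy : y = W.negY x y) :
    psi3 W x = -(W.a₁ * y - (3 * x ^ 2 + 2 * W.a₂ * x + W.a₄)) ^ 2 := by
  have hD : 2 * y + W.a₁ * x + W.a₃ = 0 := by
    simp only [negY] at hy
    linear_combination hy
  have hW := (equation_iff' x y).mp h
  have h16 : (16 : F) ≠ 0 := by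
    have : (16 : F) = 2 ^ 4 := by norm_num
    rw [this]; exact pow_ne_zero _ h2
  apply mul_left_cancel₀ h16
  simp only [psi3, WeierstrassCurve.b₂, WeierstrassCurve.b₄, WeierstrassCurve.b₆,
    WeierstrassCurve.b₈]
  linear_combination (2 * (2 * y + W.a₁ * x + W.a₃) * (24 * x + 2 * (W.a₁ ^ 2 + 4 * W.a₂))
    - 4 * W.a₁ ^ 2 * (2 * y + W.a₁ * x + W.a₃)
    + 16 * W.a₁ * (W.a₁ * y - (3 * x ^ 2 + 2 * W.a₂ * x + W.a₄))) * hD
    - 8 * (24 * x + 2 * (W.a₁ ^ 2 + 4 * W.a₂)) * hW

lemma psi3_ne_zero_of_Y_eq (h2 : (2 : F) ≠ 0) {x y : F} (h : W.Nonsingular x y)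
    (hy : y = W.negY x y) : psi3 W x ≠ 0 := by
  rw [psi3_eq_neg_sq_of_Y_eq h2 h.1 hy, neg_ne_zero]
  apply pow_ne_zero
  rcases ((nonsingular_iff' x y).mp h).2 with h1 | h1
  · exact h1
  · exfalso
    apply h1
    simp only [negY] at hy
    linear_combination hy

variable [DecidableEq F]

/-- A nonsingular point `(x, y)` is killed by `3` iff `ψ₃(x) = 0` (characteristic `≠ 2`). -/
theorem three_nsmul_some_eq_zero_iff (h2 : (2 : F) ≠ 0) {x y : F} (h : W.Nonsingular x y) :
    (3 : ℕ) • Point.some x y h = 0 ↔ psi3 W x = 0 := by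
  have h3 : (3 : ℕ) • Point.some x y h = Point.some x y h + Point.some x y h + Point.some x y h := by
    rw [show (3 : ℕ) = 2 + 1 from rfl, add_nsmul, two_nsmul, one_nsmul]
  rw [h3]
  by_cases hy : y = W.negY x y
  · rw [Point.add_self_of_Y_eq hy, zero_add]
    simp only [Point.some_ne_zero, false_iff]
    exact psi3_ne_zero_of_Y_eq h2 h hy
  · have hf : psi2 W x ≠ 0 := (psi2_ne_zero_iff h.1).mpr hy
    rw [Point.add_self_of_Y_ne hy, add_eq_zero_iff_eq_neg, Point.neg_some]
    constructor
    · intro hP
      have hx := (Point.some.injEq ..).mp hP |>.1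
      rw [addX_self_eq h.1 hy, dblX, div_eq_iff hf] at hx
      rw [← x_mul_psi2_sub_phi2, hx]; ring
    · intro hpsi
      have hx : W.addX x x (W.slope x x y y) = x := by
        rw [addX_self_eq h.1 hy, dblX, div_eq_iff hf]
        rw [← x_mul_psi2_sub_phi2] at hpsi
        linear_combination -hpsi
      rcases (Point.X_eq_iff (h₁ := nonsingular_add h h fun hxy => hy hxy.right) (h₂ := h)).mp hx
        with hP | hP
      · -- `2P = P` forces `P = 0`
        exfalso
        have h2P := Point.add_self_of_Y_ne (h₁ := h) hy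
        rw [← h2P] at hP
        exact Point.some_ne_zero h (add_eq_left.mp hP)
      · rw [hP, Point.neg_some]
end A

section B
variable {F : Type*} [Field F] {W : Affine F}

/-- The quadratic in `Y` cutting out the points with a given `x`-coordinate. -/
noncomputable def yPoly (W : Affine F) (x : F) : F[X] :=
  X ^ 2 + C (W.a₁ * x + W.a₃) * X - C (x ^ 3 + W.a₂ * x ^ 2 + W.a₄ * x + W.a₆)

lemma yPoly_monic (x : F) : (yPoly W x).Monic := by
  unfold yPoly
  monicity!

lemma natDegree_yPoly (x : F) : (yPoly W x).natDegree = 2 := by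
  unfold yPoly
  compute_degree!

lemma eval_yPoly (x y : F) : (yPoly W x).eval y =
    y ^ 2 + W.a₁ * x * y + W.a₃ * y - (x ^ 3 + W.a₂ * x ^ 2 + W.a₄ * x + W.a₆) := by
  simp [yPoly]; ring

lemma equation_iff_isRoot (x y : F) : W.Equation x y ↔ (yPoly W x).IsRoot y := by
  rw [equation_iff', IsRoot.def, eval_yPoly]

/-- coordinates of a point, as an element of `Option (F × F)`. -/
def coords : W.Point → Option (F × F)
  | .zero => none
  | .some x y _ => some (x, y)

lemma coords_injective : Function.Injective (coords (W := W)) := by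
  rintro (_ | ⟨x₁, y₁, h₁⟩) (_ | ⟨x₂, y₂, h₂⟩) h <;>
    simp only [coords, Option.some.injEq, Prod.mk.injEq, reduceCtorEq] at h
  · rfl
  · obtain ⟨rfl, rfl⟩ := h; rfl

open Classical in
/-- A set of points all of whose affine members have `x`-coordinate a root of the nonzero
polynomial `p` is finite, of cardinality at most `2 deg p + 1`. -/
theorem finite_and_ncard_le_of_forall_eval_eq_zero (p : F[X]) (hp : p ≠ 0) (S : Set W.Point)
    (hS : ∀ x y h, Point.some x y h ∈ S → p.eval x = 0) :
    S.Finite ∧ S.ncard ≤ 2 * p.natDegree + 1 := by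
  classical
  let T : Finset (F × F) := p.roots.toFinset.biUnion fun x =>
    (yPoly W x).roots.toFinset.image fun y => (x, y)
  have hT : T.card ≤ 2 * p.natDegree := by
    calc T.card ≤ ∑ x ∈ p.roots.toFinset, ((yPoly W x).roots.toFinset.image fun y => (x, y)).card :=
          Finset.card_biUnion_le
      _ ≤ ∑ _x ∈ p.roots.toFinset, 2 := by
          refine Finset.sum_le_sum fun x _ => ?_
          refine Finset.card_image_le.trans ?_
          refine (Multiset.toFinset_card_le _).trans ?_
          exact (card_roots' _).trans (natDegree_yPoly x).le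
      _ = p.roots.toFinset.card * 2 := by simp
      _ ≤ p.natDegree * 2 := by
          refine Nat.mul_le_mul_right 2 ?_
          exact (Multiset.toFinset_card_le _).trans (card_roots' _)
      _ = 2 * p.natDegree := by ring
  let U : Finset (Option (F × F)) := insert none (T.image some)
  have hU : U.card ≤ 2 * p.natDegree + 1 := by
    calc U.card ≤ (T.image some).card + 1 := Finset.card_insert_le _ _
      _ ≤ T.card + 1 := by gcongr; exact Finset.card_image_le
      _ ≤ 2 * p.natDegree + 1 := by omega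
  have hsub : coords '' S ⊆ (U : Set (Option (F × F))) := by
    rintro _ ⟨P, hP, rfl⟩
    rcases P with _ | ⟨x, y, h⟩
    · simp [U, coords]
    · have hx : p.eval x = 0 := hS x y h hP
      simp only [coords, U, Finset.coe_insert, Finset.coe_image, Set.mem_insert_iff,
        reduceCtorEq, Set.mem_image, Finset.mem_coe, Option.some.injEq, exists_eq_right,
        false_or, T, Finset.mem_biUnion, Multiset.mem_toFinset, Finset.mem_image, Prod.mk.injEq]
      refine ⟨x, (mem_roots hp).mpr hx, y, ?_, rfl, rfl⟩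
      exact (mem_roots (yPoly_monic x).ne_zero).mpr ((equation_iff_isRoot x y).mp h.1)
  have hfin : (coords '' S).Finite := U.finite_toSet.subset hsub
  refine ⟨hfin.of_finite_image coords_injective.injOn, ?_⟩
  rw [← Set.ncard_image_of_injective S coords_injective]
  calc (coords '' S).ncard ≤ (U : Set (Option (F × F))).ncard :=
        Set.ncard_le_ncard hsub U.finite_toSet
    _ = U.card := Set.ncard_coe_finset U
    _ ≤ _ := hU
end B

section C
variable {F : Type*} [Field F] {W : Affine F}

/-- Over an algebraically closed field every `x` is the `x`-coordinate of a point of the curve. -/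
lemma exists_equation [IsAlgClosed F] (W : Affine F) (x : F) : ∃ y, W.Equation x y := by
  obtain ⟨y, hy⟩ := IsAlgClosed.exists_root (yPoly W x) (by
    rw [degree_eq_natDegree (yPoly_monic x).ne_zero, natDegree_yPoly]; norm_num)
  exact ⟨y, (equation_iff_isRoot x y).mpr hy⟩

variable [DecidableEq F]

/-- Over an algebraically closed field of characteristic `≠ 2, 3`, an elliptic curve has a nonzero
point killed by `3`. -/
theorem exists_three_torsion [IsAlgClosed F] (h2 : (2 : F) ≠ 0) (h3 : (3 : F) ≠ 0)
    (hΔ : W.Δ ≠ 0) : ∃ P : W.Point, P ≠ 0 ∧ (3 : ℕ) • P = 0 := by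
  obtain ⟨x, hx⟩ := IsAlgClosed.exists_root (WeierstrassCurve.Ψ₃ W) (by
    rw [degree_eq_natDegree (WeierstrassCurve.Ψ₃_ne_zero W h3), WeierstrassCurve.natDegree_Ψ₃ W h3]
    norm_num)
  obtain ⟨y, hy⟩ := exists_equation W x
  have h : W.Nonsingular x y := (equation_iff_nonsingular_of_Δ_ne_zero hΔ).mp hy
  refine ⟨Point.some x y h, Point.some_ne_zero h, (three_nsmul_some_eq_zero_iff h2 h).mpr ?_⟩
  rw [← eval_Ψ₃]; exact hx

/-- The `3`-torsion of a Weierstrass curve (characteristic `≠ 2, 3`) has at most `9` points. -/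
theorem three_torsion_finite (h2 : (2 : F) ≠ 0) (h3 : (3 : F) ≠ 0) :
    {P : W.Point | (3 : ℕ) • P = 0}.Finite ∧ {P : W.Point | (3 : ℕ) • P = 0}.ncard ≤ 9 := by
  have := finite_and_ncard_le_of_forall_eval_eq_zero (W := W) (WeierstrassCurve.Ψ₃ W)
    (WeierstrassCurve.Ψ₃_ne_zero W h3) {P : W.Point | (3 : ℕ) • P = 0} (by
      intro x y h hP
      rw [eval_Ψ₃]
      exact (three_nsmul_some_eq_zero_iff h2 h).mp hP)
  rw [WeierstrassCurve.natDegree_Ψ₃ W h3] at this
  exact this
end C

end Fermat.Agent.S51
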