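import Fermat.Agent.S51.Torsion5

/-!
# S51 helpers: `5`-torsion of a Weierstrass curve via the doubling map on the `x`-line

* `two_nsmul_some` : `2 • (x, y) = (dblX x, _)` when `psi2 x ≠ 0`.
* `five_torsion` : a nonzero point killed by `5` gives a `2`-cycle `x ↦ x₂ ↦ x` of the doubling
  map `dblX` with `x ≠ x₂`;
* `five_torsion_of_eq` : conversely such a `2`-cycle gives a point killed by `5`.
-/

set_option autoImplicit false

open WeierstrassCurve WeierstrassCurve.Affine Polynomial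

namespace Fermat.Agent.S51

section A
variable {F : Type*} [Field F] {W : Affine F} [DecidableEq F]

/-- doubling a point with `psi2 x ≠ 0`. -/
theorem two_nsmul_some {x y : F} (h : W.Nonsingular x y) (hpsi : psi2 W x ≠ 0) :
    ∃ (y₂ : F) (h₂ : W.Nonsingular (dblX W x) y₂),
      (2 : ℕ) • Point.some x y h = Point.some (dblX W x) y₂ h₂ := by
  have hy : y ≠ W.negY x y := (psi2_ne_zero_iff h.1).mp hpsi
  have hns := nonsingular_add h h fun hxy => hy hxy.right
  have hx : W.addX x x (W.slope x x y y) = dblX W x := addX_self_eq h.1 hy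
  rw [two_nsmul, Point.add_self_of_Y_ne hy]
  refine ⟨W.addY x x y (W.slope x x y y), hx ▸ hns, ?_⟩
  congr 1

/-- doubling a point with `psi2 x = 0`. -/
theorem two_nsmul_some_of_psi2_eq_zero {x y : F} (h : W.Nonsingular x y) (hpsi : psi2 W x = 0) :
    (2 : ℕ) • Point.some x y h = 0 := by
  have hy : y = W.negY x y := by
    by_contra hne
    exact (psi2_ne_zero_iff h.1).mpr hne hpsi
  rw [two_nsmul, Point.add_self_of_Y_eq hy]

/-- A nonzero point killed by `5` gives a `2`-cycle of the doubling map on the `x`-line. -/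
theorem five_torsion {P : W.Point} (hP : P ≠ 0) (h5 : (5 : ℕ) • P = 0) :
    ∃ (x y : F) (h : W.Nonsingular x y) (x₂ y₂ : F) (h₂ : W.Nonsingular x₂ y₂),
      P = Point.some x y h ∧ (2 : ℕ) • P = Point.some x₂ y₂ h₂ ∧
      psi2 W x ≠ 0 ∧ psi2 W x₂ ≠ 0 ∧ phi2 W x = x₂ * psi2 W x ∧ phi2 W x₂ = x * psi2 W x₂ ∧
      x ≠ x₂ := by
  rcases P with _ | ⟨x, y, h⟩
  · exact absurd rfl hP
  set P : W.Point := Point.some x y h with hPdef
  -- `2 • P ≠ 0`
  have h2P : (2 : ℕ) • P ≠ 0 := by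
    intro h2
    apply hP
    have : P = (5 : ℕ) • P - (2 : ℕ) • ((2 : ℕ) • P) := by abel
    rw [this, h5, h2, smul_zero, sub_zero]
  have hpsi : psi2 W x ≠ 0 := by
    intro h0
    exact h2P (two_nsmul_some_of_psi2_eq_zero h h0)
  obtain ⟨y₂, h₂, h2eq⟩ := two_nsmul_some h hpsi
  -- `4 • P = - P`
  have h4 : (2 : ℕ) • ((2 : ℕ) • P) = -P := by
    rw [← mul_nsmul, eq_neg_iff_add_eq_zero, ← succ_nsmul]
    exact h5
  have h4ne : (2 : ℕ) • ((2 : ℕ) • P) ≠ 0 := by
    rw [h4, neg_ne_zero]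
    exact hP
  have hpsi2 : psi2 W (dblX W x) ≠ 0 := by
    intro h0
    apply h4ne
    rw [h2eq]
    exact two_nsmul_some_of_psi2_eq_zero h₂ h0
  obtain ⟨y₄, h₄, h4eq⟩ := two_nsmul_some h₂ hpsi2
  have hx4 : dblX W (dblX W x) = x := by
    rw [h2eq, h4eq, hPdef, Point.neg_some] at h4
    exact ((Point.some.injEq ..).mp h4).1
  have hne : x ≠ dblX W x := by
    intro hxx
    have hor := (Point.X_eq_iff (h₁ := h₂) (h₂ := h)).mp hxx.symm
    rw [← h2eq] at hor
    rcases hor with h' | h'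
    · -- 2P = P
      apply hP
      have : P = (2 : ℕ) • P - P := by rw [two_nsmul, add_sub_cancel_right]
      rw [this, h', sub_self]
    · -- 2P = -P, so 3P = 0
      apply hP
      have h3 : (3 : ℕ) • P = 0 := by
        rw [show (3 : ℕ) = 2 + 1 from rfl, add_nsmul, one_nsmul, h', neg_add_cancel]
      have : P = (2 : ℕ) • ((3 : ℕ) • P) - (5 : ℕ) • P := by abel
      rw [this, h3, h5, smul_zero, sub_zero]
  refine ⟨x, y, h, dblX W x, y₂, h₂, rfl, h2eq, hpsi, hpsi2, ?_, ?_, hne⟩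
  · rw [dblX, div_mul_cancel₀ _ hpsi]
  · have e : phi2 W (dblX W x) = dblX W (dblX W x) * psi2 W (dblX W x) := by
      conv_rhs => rw [dblX]
      rw [div_mul_cancel₀ _ hpsi2]
    rw [hx4] at e
    exact e

/-- Conversely, a `2`-cycle `x ↦ x₂ ↦ x` of the doubling map with `x ≠ x₂` gives a point killed
by `5`. -/
theorem five_torsion_of_eq {x y x₂ : F} (h : W.Nonsingular x y)
    (h1 : psi2 W x ≠ 0) (h2 : psi2 W x₂ ≠ 0) (h3 : phi2 W x = x₂ * psi2 W x)
    (h4 : phi2 W x₂ = x * psi2 W x₂) (h5 : x ≠ x₂) :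
    (5 : ℕ) • (Point.some x y h) = 0 := by
  set P : W.Point := Point.some x y h with hPdef
  have hx2 : dblX W x = x₂ := by rw [dblX, h3, mul_div_cancel_right₀ _ h1]
  have hx4 : dblX W x₂ = x := by rw [dblX, h4, mul_div_cancel_right₀ _ h2]
  obtain ⟨y₂, h₂, h2eq⟩ := two_nsmul_some h h1
  rw [hx2] at h₂
  obtain ⟨y₄, h₄, h4eq⟩ := two_nsmul_some h₂ h2
  have h2eq' : (2 : ℕ) • P = Point.some x₂ y₂ h₂ := by
    rw [h2eq]; congr 1
  rw [hx4] at h₄
  have h4eq' : (2 : ℕ) • ((2 : ℕ) • P) = Point.some x y₄ h₄ := by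
    rw [h2eq', h4eq]; congr 1
  rcases (Point.X_eq_iff (h₁ := h₄) (h₂ := h)).mp rfl with h' | h'
  · -- 4P = P: then 3P = 0, so 2P = -P and x₂ = x
    exfalso
    apply h5
    have h3P : (2 : ℕ) • P = -P := by
      have e : (2 : ℕ) • ((2 : ℕ) • P) = (2 : ℕ) • P + P + P := by
        rw [← mul_nsmul, show (2 * 2 : ℕ) = 2 + 1 + 1 from rfl, add_nsmul, add_nsmul, one_nsmul]
      rw [h4eq', h', ← hPdef] at e
      have e2 : (2 : ℕ) • P + P = 0 := by
        have := congrArg (fun Q => Q - P) e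
        simpa using this.symm
      exact eq_neg_of_add_eq_zero_left e2
    rw [h2eq', hPdef, Point.neg_some] at h3P
    exact (((Point.some.injEq ..).mp h3P).1).symm
  · -- 4P = -P
    have e : (5 : ℕ) • P = (2 : ℕ) • ((2 : ℕ) • P) + P := by
      rw [← mul_nsmul, ← succ_nsmul]
    rw [e, h4eq', h', ← hPdef, neg_add_cancel]

end A

section B
variable {F : Type*} [Field F] (W : WeierstrassCurve F)

/-- `phi2` as a polynomial -/
noncomputable def phi2Poly : F[X] := X ^ 4 - C W.b₄ * X ^ 2 - C (2 * W.b₆) * X - C W.b₈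

/-- `psi2` as a polynomial -/
noncomputable def psi2Poly : F[X] := C 4 * X ^ 3 + C W.b₂ * X ^ 2 + C (2 * W.b₄) * X + C W.b₆

/-- The polynomial of degree `16` whose roots are the `x`-coordinates of the nonzero points
killed by `3` or by `5`: the numerator of `dblX (dblX x) - x`. -/
noncomputable def P16 : F[X] :=
  phi2Poly W ^ 4 - C W.b₄ * phi2Poly W ^ 2 * psi2Poly W ^ 2
    - C (2 * W.b₆) * phi2Poly W * psi2Poly W ^ 3 - C W.b₈ * psi2Poly W ^ 4
    - X * psi2Poly W * (C 4 * phi2Poly W ^ 3 + C W.b₂ * phi2Poly W ^ 2 * psi2Poly W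
      + C (2 * W.b₄) * phi2Poly W * psi2Poly W ^ 2 + C W.b₆ * psi2Poly W ^ 3)

lemma eval_phi2Poly (x : F) : (phi2Poly W).eval x = phi2 W x := by
  simp [phi2Poly, phi2]

lemma eval_psi2Poly (x : F) : (psi2Poly W).eval x = psi2 W x := by
  simp [psi2Poly, psi2]

lemma natDegree_P16_le : (P16 W).natDegree ≤ 16 := by
  unfold P16 phi2Poly psi2Poly
  compute_degree

lemma coeff_P16 : (P16 W).coeff 16 = -15 := by
  unfold P16 phi2Poly psi2Poly
  compute_degree!

lemma P16_ne_zero (h15 : (15 : F) ≠ 0) : P16 W ≠ 0 := by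
  intro h0
  have h := coeff_P16 W
  rw [h0, coeff_zero] at h
  exact h15 (by linear_combination h)

lemma eval_P16 (x : F) : (P16 W).eval x =
    phi2 W x ^ 4 - W.b₄ * phi2 W x ^ 2 * psi2 W x ^ 2
    - 2 * W.b₆ * phi2 W x * psi2 W x ^ 3 - W.b₈ * psi2 W x ^ 4
    - x * psi2 W x * (4 * phi2 W x ^ 3 + W.b₂ * phi2 W x ^ 2 * psi2 W x
      + 2 * W.b₄ * phi2 W x * psi2 W x ^ 2 + W.b₆ * psi2 W x ^ 3) := by
  simp [P16, eval_phi2Poly, eval_psi2Poly]

/-- a `2`-cycle of the doubling map gives a root of `P16`. -/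
lemma eval_P16_eq_zero {x x₂ : F} (h3 : phi2 W x = x₂ * psi2 W x)
    (h4 : phi2 W x₂ = x * psi2 W x₂) : (P16 W).eval x = 0 := by
  rw [eval_P16, h3]
  simp only [phi2, psi2] at h4
  linear_combination (psi2 W x) ^ 4 * h4

end B

section C
variable {F : Type*} [Field F] {W : Affine F} [DecidableEq F]

/-- The `5`-torsion of a Weierstrass curve (characteristic `≠ 3, 5`) has at most `33` points. -/
theorem five_torsion_finite_le33 (h15 : (15 : F) ≠ 0) :
    {P : W.Point | (5 : ℕ) • P = 0}.Finite ∧ {P : W.Point | (5 : ℕ) • P = 0}.ncard ≤ 33 := by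
  have key := finite_and_ncard_le_of_forall_eval_eq_zero (W := W) (P16 W)
    (P16_ne_zero W h15) {P : W.Point | (5 : ℕ) • P = 0} (by
      intro x y h hP
      obtain ⟨x', y', h', x₂, y₂, h₂, hPeq, -, -, -, h3, h4, -⟩ :=
        five_torsion (Point.some_ne_zero h) hP
      have hx : x = x' := ((Point.some.injEq ..).mp hPeq).1
      subst hx
      exact eval_P16_eq_zero W h3 h4)
  refine ⟨key.1, key.2.trans ?_⟩
  have := natDegree_P16_le W
  omega

end C

end Fermat.Agent.S51
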