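import Fermat.Agent.S51.Galois
import Fermat.Agent.S51.Torsion5Cycle

/-!
# S51: Galois descent for reducible mod-`3` and mod-`5` representations

* `exists_stable_point` : a reducible mod-`n` representation has a Galois-stable line.
* `rational_root_of_not_irreducible_three` : if the mod-`3` representation of `E/ℚ` is not
  irreducible then the `3`-division polynomial has a rational root.
* `rational_param_of_not_irreducible_five` : if the mod-`5` representation of `E/ℚ` is not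
  irreducible then `j(E)` is the image of a rational point of `X₀(5)`.
-/

set_option autoImplicit false

open WeierstrassCurve WeierstrassCurve.Affine WeierstrassCurve.Affine.Point

namespace Fermat.Agent.S51.Galois

local notation "Kb" => AlgebraicClosure ℚ

variable (E : Affine ℚ)

/-- the action on affine points -/
theorem smul_some (σ : Kb ≃ₐ[ℚ] Kb) {x y : Kb} (h : (E⁄Kb).Nonsingular x y) :
    ∃ h', σ • (Point.some x y h : (E⁄Kb).Point) = Point.some (σ x) (σ y) h' :=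
  ⟨_, rfl⟩

theorem mem_torsion_iff (n : ℕ) (P : (E⁄Kb).Point) :
    P ∈ Submodule.torsionBy ℤ (E⁄Kb).Point (n : ℤ) ↔ n • P = 0 := by
  rw [Submodule.mem_torsionBy_iff, natCast_zsmul]

/-- the torsion type has the expected cardinality -/
theorem card_torsion_le (n : ℕ) (B : ℕ)
    (hfin : {P : (E⁄Kb).Point | n • P = 0}.Finite ∧ {P : (E⁄Kb).Point | n • P = 0}.ncard ≤ B) :
    Finite (Submodule.torsionBy ℤ (E⁄Kb).Point n) ∧
      Nat.card (Submodule.torsionBy ℤ (E⁄Kb).Point n) ≤ B := by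
  have hset : ((Submodule.torsionBy ℤ (E⁄Kb).Point (n : ℤ) : Submodule ℤ (E⁄Kb).Point) :
      Set (E⁄Kb).Point) = {P : (E⁄Kb).Point | n • P = 0} := by
    ext P
    exact mem_torsion_iff E n P
  have hf : Finite (Submodule.torsionBy ℤ (E⁄Kb).Point n) := by
    have : Finite ↑{P : (E⁄Kb).Point | n • P = 0} := hfin.1.to_subtype
    rw [← hset] at this
    exact this
  refine ⟨hf, ?_⟩
  have : Nat.card (Submodule.torsionBy ℤ (E⁄Kb).Point n) =
      {P : (E⁄Kb).Point | n • P = 0}.ncard := by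
    rw [← hset]
    exact Nat.card_coe_set_eq _
  rw [this]
  exact hfin.2

theorem coe_nsmul_torsion (n k : ℕ) (P : Submodule.torsionBy ℤ (E⁄Kb).Point n) :
    ((k • P : Submodule.torsionBy ℤ (E⁄Kb).Point n) : (E⁄Kb).Point) = k • (P : (E⁄Kb).Point) :=
  AddSubmonoidClass.coe_nsmul P k

/-- Reducibility gives a Galois-stable line. -/
theorem exists_stable_point (n : ℕ) [Fact n.Prime] (B : ℕ) (hB : B < n ^ 3)
    (hnt : ∃ P : (E⁄Kb).Point, P ≠ 0 ∧ n • P = 0)
    (hfin : {P : (E⁄Kb).Point | n • P = 0}.Finite ∧ {P : (E⁄Kb).Point | n • P = 0}.ncard ≤ B)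
    (h : ¬ GaloisRepIsIrreducible (K := Kb) ℚ E n) :
    ∃ P : (E⁄Kb).Point, P ≠ 0 ∧ n • P = 0 ∧ ∀ σ : Kb ≃ₐ[ℚ] Kb, ∃ k : ℕ, σ • P = k • P := by
  classical
  have hnt' : Nontrivial (Submodule.torsionBy ℤ (E⁄Kb).Point n) := by
    obtain ⟨P, hP0, hPn⟩ := hnt
    exact ⟨⟨⟨P, (mem_torsion_iff E n P).mpr hPn⟩, 0, fun h => hP0 (congrArg Subtype.val h)⟩⟩
  obtain ⟨hfin', hcard⟩ := card_torsion_le E n B hfin
  unfold GaloisRepIsIrreducible at h
  rw [not_and] at h
  have h' := h hnt'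
  push Not at h'
  obtain ⟨N, hstab, hbot, htop⟩ := h'
  obtain ⟨P, hPN, hP0, hgen⟩ := exists_generator_of_proper
    (show Nat.card (Submodule.torsionBy ℤ (E⁄Kb).Point n) < n ^ 3 by omega) N hbot htop
  refine ⟨P.1, fun h0 => hP0 (Subtype.ext h0), (mem_torsion_iff E n P.1).mp P.2, fun σ => ?_⟩
  obtain ⟨k, hk⟩ := hgen _ (hstab σ _ hPN)
  refine ⟨k, ?_⟩
  have := congrArg Subtype.val hk
  rw [coe_nsmul_torsion] at this
  exact this

theorem two_ne_zero_Kb : (2 : Kb) ≠ 0 := two_ne_zero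
theorem three_ne_zero_Kb : (3 : Kb) ≠ 0 := three_ne_zero
theorem five_ne_zero_Kb : (5 : Kb) ≠ 0 := by norm_num

theorem Δ_baseChange_ne_zero (hΔ : E.Δ ≠ 0) : (E⁄Kb).Δ ≠ 0 := by
  have : (E⁄Kb).Δ = algebraMap ℚ Kb E.Δ := by
    simp [WeierstrassCurve.baseChange, WeierstrassCurve.map_Δ]
  rw [this]
  exact (map_ne_zero_iff _ (algebraMap ℚ Kb).injective).mpr hΔ

theorem nsmul_mod {n : ℕ} {P : (E⁄Kb).Point} (hP : n • P = 0) (k : ℕ) :
    k • P = (k % n) • P := by
  conv_lhs => rw [← Nat.div_add_mod k n, add_nsmul, mul_nsmul, hP, nsmul_zero, zero_add]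

/-- if the mod-3 representation is not irreducible, the 3-division polynomial has a rational
root (at which `psi2` does not vanish). -/
theorem rational_root_of_not_irreducible_three (hΔ : E.Δ ≠ 0)
    (h : ¬ GaloisRepIsIrreducible (K := Kb) ℚ E 3) :
    ∃ x : ℚ, psi2 E x ≠ 0 ∧ phi2 E x = x * psi2 E x := by
  classical
  have hΔ' := Δ_baseChange_ne_zero E hΔ
  have : Fact (Nat.Prime 3) := ⟨Nat.prime_three⟩
  obtain ⟨Pv, hPv0, hPv3, hgen⟩ := exists_stable_point E 3 9 (by norm_num)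
    (exists_three_torsion (W := (E⁄Kb)) two_ne_zero_Kb three_ne_zero_Kb hΔ')
    (three_torsion_finite (W := (E⁄Kb)) two_ne_zero_Kb three_ne_zero_Kb) h
  cases Pv with
  | zero => exact absurd rfl hPv0
  | some x y hxy =>
  -- x is Galois-fixed
  have hfix : ∀ σ : Kb ≃ₐ[ℚ] Kb, σ x = x := by
    intro σ
    obtain ⟨k, hk'⟩ := hgen σ
    obtain ⟨hσ, hσe⟩ := smul_some E σ hxy
    rw [hσe, nsmul_mod E hPv3 k] at hk'
    have hlt : k % 3 < 3 := Nat.mod_lt _ (by norm_num)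
    interval_cases hk3 : k % 3
    · rw [zero_nsmul] at hk'
      exact absurd hk' (Point.some_ne_zero _)
    · rw [one_nsmul] at hk'
      exact (Point.some.inj hk').1
    · have h2 : (2 : ℕ) • (Point.some x y hxy : (E⁄Kb).Point) = -(Point.some x y hxy) := by
        rw [eq_neg_iff_add_eq_zero, ← succ_nsmul]
        exact hPv3
      rw [h2, Point.neg_some] at hk'
      exact (Point.some.inj hk').1
  obtain ⟨q, hq⟩ := exists_rat_of_fixed x hfix
  have hpsi3 : psi3 (E⁄Kb) x = 0 := (three_nsmul_some_eq_zero_iff two_ne_zero_Kb hxy).mp hPv3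
  have hyne : y ≠ (E⁄Kb).negY x y := fun hy =>
    psi3_ne_zero_of_Y_eq two_ne_zero_Kb hxy hy hpsi3
  have hpsi2 : psi2 (E⁄Kb) x ≠ 0 := (psi2_ne_zero_iff hxy.1).mpr hyne
  refine ⟨q, ?_, ?_⟩
  · intro h0
    apply hpsi2
    rw [← hq]
    show psi2 (E.map (algebraMap ℚ Kb)) _ = 0
    rw [psi2_map, h0, _root_.map_zero]
  · have h3 : psi3 E q = 0 := by
      have : algebraMap ℚ Kb (psi3 E q) = 0 := by
        rw [← psi3_map]
        show psi3 (E⁄Kb) _ = 0
        rw [hq]; exact hpsi3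
      exact (map_eq_zero_iff _ (algebraMap ℚ Kb).injective).mp this
    rw [psi3_eq] at h3
    linear_combination -h3

theorem galois_psi2 (σ : Kb ≃ₐ[ℚ] Kb) (x : Kb) :
    σ (psi2 (E⁄Kb) x) = psi2 (E⁄Kb) (σ x) := by
  show σ (psi2 (E.map (algebraMap ℚ Kb)) x) = psi2 (E.map (algebraMap ℚ Kb)) (σ x)
  simp only [psi2, WeierstrassCurve.map_b₂, WeierstrassCurve.map_b₄, WeierstrassCurve.map_b₆,
    map_add, map_mul, map_pow, map_ofNat, AlgEquiv.commutes]

theorem galois_phi2 (σ : Kb ≃ₐ[ℚ] Kb) (x : Kb) :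
    σ (phi2 (E⁄Kb) x) = phi2 (E⁄Kb) (σ x) := by
  show σ (phi2 (E.map (algebraMap ℚ Kb)) x) = phi2 (E.map (algebraMap ℚ Kb)) (σ x)
  simp only [phi2, WeierstrassCurve.map_b₄, WeierstrassCurve.map_b₆, WeierstrassCurve.map_b₈,
    map_sub, map_mul, map_pow, map_ofNat, AlgEquiv.commutes]

/-- if the mod-5 representation is not irreducible, the `j`-invariant is in the image of
`X₀(5)`. -/
theorem rational_param_of_not_irreducible_five (hΔ : E.Δ ≠ 0)
    (h : ¬ GaloisRepIsIrreducible (K := Kb) ℚ E 5) :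
    ∃ t : ℚ, E.c₄ ^ 3 * t = E.Δ * (t ^ 2 + 10 * t + 5) ^ 3 := by
  classical
  have hΔ' := Δ_baseChange_ne_zero E hΔ
  have : Fact (Nat.Prime 5) := ⟨Nat.prime_five⟩
  obtain ⟨P, hP0, hP5, hgen⟩ := exists_stable_point E 5 25 (by norm_num)
    (exists_five_torsion (W := (E⁄Kb)) two_ne_zero_Kb five_ne_zero_Kb hΔ')
    (five_torsion_finite (W := (E⁄Kb)) five_ne_zero_Kb) h
  obtain ⟨x, y, hxy, x₂, y₂, hxy₂, rfl, h2P, hp1, hp2, hc1, hc2, hne⟩ := five_torsion hP0 hP5
  -- the Galois action on `x`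
  have hx : ∀ σ : Kb ≃ₐ[ℚ] Kb, σ x = x ∨ σ x = x₂ := by
    intro σ
    obtain ⟨k, hk'⟩ := hgen σ
    obtain ⟨hσ, hσe⟩ := smul_some E σ hxy
    rw [hσe, nsmul_mod E hP5 k] at hk'
    have hlt : k % 5 < 5 := Nat.mod_lt _ (by norm_num)
    have h4 : (4 : ℕ) • (Point.some x y hxy : (E⁄Kb).Point) = -(Point.some x y hxy) := by
      rw [eq_neg_iff_add_eq_zero, ← succ_nsmul]
      exact hP5
    have h3 : (3 : ℕ) • (Point.some x y hxy : (E⁄Kb).Point) = -(Point.some x₂ y₂ hxy₂) := by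
      rw [← h2P, eq_neg_iff_add_eq_zero, ← add_nsmul]
      exact hP5
    interval_cases hk5 : k % 5
    · rw [zero_nsmul] at hk'
      exact absurd hk' (Point.some_ne_zero _)
    · rw [one_nsmul] at hk'
      exact Or.inl (Point.some.inj hk').1
    · rw [h2P] at hk'
      exact Or.inr (Point.some.inj hk').1
    · rw [h3, Point.neg_some] at hk'
      exact Or.inr (Point.some.inj hk').1
    · rw [h4, Point.neg_some] at hk'
      exact Or.inl (Point.some.inj hk').1
  -- the Galois action on the pair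
  have hpair : ∀ σ : Kb ≃ₐ[ℚ] Kb, (σ x = x ∧ σ x₂ = x₂) ∨ (σ x = x₂ ∧ σ x₂ = x) := by
    intro σ
    have hσc : phi2 (E⁄Kb) (σ x) = σ x₂ * psi2 (E⁄Kb) (σ x) := by
      rw [← galois_phi2, ← galois_psi2, hc1, map_mul]
    rcases hx σ with hσx | hσx
    · left
      refine ⟨hσx, ?_⟩
      rw [hσx, hc1] at hσc
      exact (mul_right_cancel₀ hp1 hσc).symm
    · right
      refine ⟨hσx, ?_⟩
      rw [hσx, hc2] at hσc
      exact (mul_right_cancel₀ hp2 hσc).symm
  obtain ⟨t, ht, htdef⟩ := j_param_five (W := (E⁄Kb)) hp1 hp2 hc1 hc2 hne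
  have htfix : ∀ σ : Kb ≃ₐ[ℚ] Kb, σ t = t := by
    intro σ
    rw [htdef]
    simp only [map_sub, map_add, map_div₀, map_pow, galois_psi2, map_ofNat]
    rcases hpair σ with ⟨h1, h2⟩ | ⟨h1, h2⟩
    · rw [h1, h2]
    · rw [h1, h2]; ring
  obtain ⟨q, hq⟩ := exists_rat_of_fixed t htfix
  refine ⟨q, ?_⟩
  have hc4 : (E⁄Kb).c₄ = algebraMap ℚ Kb E.c₄ := by
    simp [WeierstrassCurve.baseChange, WeierstrassCurve.map_c₄]
  have hD : (E⁄Kb).Δ = algebraMap ℚ Kb E.Δ := by
    simp [WeierstrassCurve.baseChange, WeierstrassCurve.map_Δ]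
  rw [hc4, hD, ← hq] at ht
  apply (algebraMap ℚ Kb).injective
  simpa only [map_mul, map_pow, map_add, map_ofNat] using ht

end Fermat.Agent.S51.Galois
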