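import Mathlib.Tactic
import Fermat.Prelude.Def_FLTPrelim_Modularity

/-!
(C5)/WP6a of the S51 development: the four exceptional values of the `X₀(5)`-parameter `t`
coming from the non-cuspidal rational points of `X₀(15)` are incompatible with semistability
(each forces `5 ∣ c₄` and `5 ∣ Δ`).
-/

set_option autoImplicit false

namespace Fermat.Agent.S51

namespace NotSemistable

theorem prime_five : Prime (5 : ℤ) := by
  rw [Int.prime_iff_natAbs_prime]; norm_num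

/-- `α c³ = 5 β Δ` with `5 ∤ α`, `5 ∤ β` forces `5 ∣ c` and `5 ∣ Δ`. -/
theorem five_dvd_of_eq_one {c Δ α β : ℤ} (hα : ¬ (5 : ℤ) ∣ α) (hβ : ¬ (5 : ℤ) ∣ β)
    (h : α * c ^ 3 = 5 * (β * Δ)) : (5 : ℤ) ∣ c ∧ (5 : ℤ) ∣ Δ := by
  have h5 : (5 : ℤ) ∣ α * c ^ 3 := ⟨β * Δ, h⟩
  have hc : (5 : ℤ) ∣ c := by
    rcases prime_five.dvd_or_dvd h5 with h1 | h1
    · exact absurd h1 hα
    · exact prime_five.dvd_of_dvd_pow h1
  refine ⟨hc, ?_⟩
  obtain ⟨m, rfl⟩ := hc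
  have h2 : β * Δ = 5 * (5 * α * m ^ 3) := by
    have : (5 : ℤ) * (β * Δ) = 5 * (5 * (5 * α * m ^ 3)) := by rw [← h]; ring
    exact mul_left_cancel₀ (by norm_num) this
  have h3 : (5 : ℤ) ∣ β * Δ := ⟨_, h2⟩
  rcases prime_five.dvd_or_dvd h3 with h1 | h1
  · exact absurd h1 hβ
  · exact h1

/-- `α c³ = 25 β Δ` with `5 ∤ α`, `5 ∤ β` forces `5 ∣ c` and `5 ∣ Δ`. -/
theorem five_dvd_of_eq_two {c Δ α β : ℤ} (hα : ¬ (5 : ℤ) ∣ α) (hβ : ¬ (5 : ℤ) ∣ β)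
    (h : α * c ^ 3 = 25 * (β * Δ)) : (5 : ℤ) ∣ c ∧ (5 : ℤ) ∣ Δ := by
  have h5 : (5 : ℤ) ∣ α * c ^ 3 := ⟨5 * (β * Δ), by rw [h]; ring⟩
  have hc : (5 : ℤ) ∣ c := by
    rcases prime_five.dvd_or_dvd h5 with h1 | h1
    · exact absurd h1 hα
    · exact prime_five.dvd_of_dvd_pow h1
  refine ⟨hc, ?_⟩
  obtain ⟨m, rfl⟩ := hc
  have h2 : β * Δ = 5 * (α * m ^ 3) := by
    have : (25 : ℤ) * (β * Δ) = 25 * (5 * (α * m ^ 3)) := by rw [← h]; ring
    exact mul_left_cancel₀ (by norm_num) this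
  have h3 : (5 : ℤ) ∣ β * Δ := ⟨_, h2⟩
  rcases prime_five.dvd_or_dvd h3 with h1 | h1
  · exact absurd h1 hβ
  · exact h1

end NotSemistable

open NotSemistable in
/-- WP6a: the four exceptional `t`-values are not semistable. -/
theorem not_semistable_of_j (W : WeierstrassCurve ℤ) (hΔ : W.Δ ≠ 0) (hW : W.IsSemistableModel)
    (t : ℚ) (ht : t = -40 ∨ t = -25 / 2 ∨ t = -10 ∨ t = -25 / 8)
    (h : (W.c₄ : ℚ) ^ 3 * t = (W.Δ : ℚ) * (t ^ 2 + 10 * t + 5) ^ 3) : False := by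
  have key : (5 : ℤ) ∣ W.c₄ ∧ (5 : ℤ) ∣ W.Δ := by
    rcases ht with rfl | rfl | rfl | rfl
    · -- t = -40 :  -8 c₄³ = 25 · 241³ · Δ
      have h' : (-8 : ℤ) * W.c₄ ^ 3 = 25 * (241 ^ 3 * W.Δ) := by
        have : ((-8 : ℤ) * W.c₄ ^ 3 : ℚ) = ((25 * (241 ^ 3 * W.Δ) : ℤ) : ℚ) := by
          push_cast
          linear_combination (1 / 5 : ℚ) * h
        exact_mod_cast this
      exact five_dvd_of_eq_two (by norm_num) (by norm_num) h'
    · -- t = -25/2 :  -32 c₄³ = 5 · 29³ · Δ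
      have h' : (-32 : ℤ) * W.c₄ ^ 3 = 5 * (29 ^ 3 * W.Δ) := by
        have : ((-32 : ℤ) * W.c₄ ^ 3 : ℚ) = ((5 * (29 ^ 3 * W.Δ) : ℤ) : ℚ) := by
          push_cast
          linear_combination (64 / 25 : ℚ) * h
        exact_mod_cast this
      exact five_dvd_of_eq_one (by norm_num) (by norm_num) h'
    · -- t = -10 :  -2 c₄³ = 25 Δ
      have h' : (-2 : ℤ) * W.c₄ ^ 3 = 25 * (1 * W.Δ) := by
        have : ((-2 : ℤ) * W.c₄ ^ 3 : ℚ) = ((25 * (1 * W.Δ) : ℤ) : ℚ) := by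
          push_cast
          linear_combination (1 / 5 : ℚ) * h
        exact_mod_cast this
      exact five_dvd_of_eq_two (by norm_num) (by norm_num) h'
    · -- t = -25/8 :  32768 c₄³ = 5 · 211³ · Δ
      have h' : (32768 : ℤ) * W.c₄ ^ 3 = 5 * (211 ^ 3 * W.Δ) := by
        have : ((32768 : ℤ) * W.c₄ ^ 3 : ℚ) = ((5 * (211 ^ 3 * W.Δ) : ℤ) : ℚ) := by
          push_cast
          linear_combination (-262144 / 25 : ℚ) * h
        exact_mod_cast this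
      exact five_dvd_of_eq_one (by norm_num) (by norm_num) h'
  exact hW 5 (by norm_num) (by exact_mod_cast key.2) (by exact_mod_cast key.1)

end Fermat.Agent.S51
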