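import Mathlib

set_option autoImplicit false

/-!
# Rational points on `y² = x (x + 9) (x - 16)` (rank zero, torsion `ℤ/2 × ℤ/4`)

Main results:
* `Fermat.Agent.S51.RankZero.main_int`: `u² - v² = z²`, `u² - w² = 81 z²` over `ℤ` forces `z = 0`
  (no two Pythagorean triangles with common hypotenuse and legs `z`, `9 z`).
* `Fermat.Agent.S51.RankZero.curveC`: rational points of `Y² = X (X - 1) (X - 81)` have `Y = 0`.
* `Fermat.Agent.S51.RankZero.rank_zero_15a`: rational points of `y² = x (x + 9) (x - 16)` have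
  `x ∈ {0, -9, 16, 36, -4}`.
-/

namespace Fermat.Agent.S51.RankZero

/-! ### Squares modulo small numbers -/

theorem sq_mod_eight_of_odd {n : ℤ} (h : n % 2 = 1) : n ^ 2 % 8 = 1 := by
  have h8 : n % 8 = 1 ∨ n % 8 = 3 ∨ n % 8 = 5 ∨ n % 8 = 7 := by omega
  rcases h8 with h8 | h8 | h8 | h8 <;> simp [pow_two, Int.mul_emod, h8]

theorem sq_mod_four_of_even {n : ℤ} (h : n % 2 = 0) : n ^ 2 % 4 = 0 := by
  have h4 : n % 4 = 0 ∨ n % 4 = 2 := by omega
  rcases h4 with h4 | h4 <;> simp [pow_two, Int.mul_emod, h4]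

theorem sq_mod_eight (n : ℤ) : n ^ 2 % 8 = 0 ∨ n ^ 2 % 8 = 1 ∨ n ^ 2 % 8 = 4 := by
  have h8 : n % 8 = 0 ∨ n % 8 = 1 ∨ n % 8 = 2 ∨ n % 8 = 3 ∨ n % 8 = 4 ∨ n % 8 = 5 ∨ n % 8 = 6 ∨
      n % 8 = 7 := by omega
  rcases h8 with h8 | h8 | h8 | h8 | h8 | h8 | h8 | h8 <;> simp [pow_two, Int.mul_emod, h8]

theorem sq_mod_three (n : ℤ) : (n % 3 = 0 ∧ n ^ 2 % 3 = 0) ∨ (n % 3 ≠ 0 ∧ n ^ 2 % 3 = 1) := by
  have h3 : n % 3 = 0 ∨ n % 3 = 1 ∨ n % 3 = 2 := by omega
  rcases h3 with h3 | h3 | h3 <;> simp [pow_two, Int.mul_emod, h3]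

theorem sq_mod_four (n : ℤ) : (n % 2 = 0 ∧ n ^ 2 % 4 = 0) ∨ (n % 2 = 1 ∧ n ^ 2 % 4 = 1) := by
  have h4 : n % 4 = 0 ∨ n % 4 = 1 ∨ n % 4 = 2 ∨ n % 4 = 3 := by omega
  rcases h4 with h4 | h4 | h4 | h4 <;> simp [pow_two, Int.mul_emod, h4] <;> omega

/-! ### A lemma on products equal to five times a square -/

/-- If `A * B = m ^ 2` with `A`, `B` coprime then `A` is plus or minus a square. -/
theorem sq_of_coprime_mul {A B m : ℤ} (hc : IsCoprime A B) (h : A * B = m ^ 2) :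
    ∃ τ : ℤ, A = τ ^ 2 ∨ A = -τ ^ 2 :=
  Int.sq_of_gcd_eq_one (Int.isCoprime_iff_gcd_eq_one.mp hc) h

theorem five_mul_sq_aux {A B m : ℤ} (hc : IsCoprime A B) (h : A * B = 5 * m ^ 2) :
    (∃ τ : ℤ, A = τ ^ 2 ∨ A = -τ ^ 2) ∨ (∃ τ : ℤ, B = τ ^ 2 ∨ B = -τ ^ 2) := by
  have h5 : (5 : ℤ) ∣ A * B := ⟨m ^ 2, h⟩
  have hp : Prime (5 : ℤ) := by norm_num
  rcases hp.dvd_or_dvd h5 with ⟨A₁, rfl⟩ | ⟨B₁, rfl⟩
  · right
    have hc' : IsCoprime B A₁ := (IsCoprime.of_mul_left_right hc).symm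
    have h' : B * A₁ = m ^ 2 := by
      have : 5 * (B * A₁) = 5 * m ^ 2 := by rw [← h]; ring
      exact mul_left_cancel₀ (by norm_num) this
    exact sq_of_coprime_mul hc' h'
  · left
    have hc' : IsCoprime A B₁ := IsCoprime.of_mul_right_right hc
    have h' : A * B₁ = m ^ 2 := by
      have : 5 * (A * B₁) = 5 * m ^ 2 := by rw [← h]; ring
      exact mul_left_cancel₀ (by norm_num) this
    exact sq_of_coprime_mul hc' h'

/-- If `A * B = 5 n²` and `gcd (A, B)` divides `5` then one of `A`, `B` is plus or minus a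
square. -/
theorem five_mul_sq {A B n : ℤ} (h : A * B = 5 * n ^ 2) (hg : (Int.gcd A B : ℤ) ∣ 5) :
    ∃ τ : ℤ, A = τ ^ 2 ∨ A = -τ ^ 2 ∨ B = τ ^ 2 ∨ B = -τ ^ 2 := by
  by_cases hA0 : A = 0 ∧ B = 0
  · exact ⟨0, Or.inl (by simp [hA0.1])⟩
  have hgpos : 0 < Int.gcd A B := by
    rcases Nat.eq_zero_or_pos (Int.gcd A B) with h0 | h0
    · exact absurd (Int.gcd_eq_zero_iff.mp h0) hA0
    · exact h0
  obtain ⟨A', B', hc, hA, hB⟩ := Int.exists_gcd_one hgpos
  have hc' : IsCoprime A' B' := Int.isCoprime_iff_gcd_eq_one.mpr hc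
  -- the gcd is 1 or 5
  have hg15 : (Int.gcd A B : ℤ) = 1 ∨ (Int.gcd A B : ℤ) = 5 := by
    have hle : (Int.gcd A B : ℤ) ≤ 5 := Int.le_of_dvd (by norm_num) hg
    have hpos : (0 : ℤ) < Int.gcd A B := by exact_mod_cast hgpos
    obtain ⟨k, hk⟩ := hg
    have : (Int.gcd A B : ℤ) = 1 ∨ (Int.gcd A B : ℤ) = 2 ∨ (Int.gcd A B : ℤ) = 3 ∨
        (Int.gcd A B : ℤ) = 4 ∨ (Int.gcd A B : ℤ) = 5 := by omega
    rcases this with h1 | h1 | h1 | h1 | h1
    · exact Or.inl h1
    · rw [h1] at hk; omega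
    · rw [h1] at hk; omega
    · rw [h1] at hk; omega
    · exact Or.inr h1
  rcases hg15 with hg1 | hg5
  · rw [hg1, mul_one] at hA hB
    subst hA hB
    rcases five_mul_sq_aux hc' h with ⟨τ, hτ⟩ | ⟨τ, hτ⟩
    · exact ⟨τ, by tauto⟩
    · exact ⟨τ, by tauto⟩
  · rw [hg5] at hA hB
    subst hA hB
    -- `25 A' B' = 5 n²`, so `5 ∣ n`
    have h1 : 5 * (A' * B') = n ^ 2 := by
      have : 5 * (5 * (A' * B')) = 5 * n ^ 2 := by rw [← h]; ring
      exact mul_left_cancel₀ (by norm_num) this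
    have hp : Prime (5 : ℤ) := by norm_num
    have h5n : (5 : ℤ) ∣ n := hp.dvd_of_dvd_pow ⟨A' * B', h1.symm⟩
    obtain ⟨n₁, rfl⟩ := h5n
    have h2 : A' * B' = 5 * n₁ ^ 2 := by
      have : 5 * (A' * B') = 5 * (5 * n₁ ^ 2) := by rw [h1]; ring
      exact mul_left_cancel₀ (by norm_num) this
    -- now `A' B' = 5 n₁²` with `A'`, `B'` coprime
    have h5 : (5 : ℤ) ∣ A' * B' := ⟨n₁ ^ 2, h2⟩
    rcases hp.dvd_or_dvd h5 with ⟨A₂, rfl⟩ | ⟨B₂, rfl⟩
    · -- `A = 25 A₂` and `A₂ B' = n₁²`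
      have hc2 : IsCoprime A₂ B' := IsCoprime.of_mul_left_right hc'
      have h3 : A₂ * B' = n₁ ^ 2 := by
        have : 5 * (A₂ * B') = 5 * n₁ ^ 2 := by rw [← h2]; ring
        exact mul_left_cancel₀ (by norm_num) this
      obtain ⟨σ, hσ | hσ⟩ := sq_of_coprime_mul hc2 h3
      · exact ⟨5 * σ, Or.inl (by rw [hσ]; ring)⟩
      · exact ⟨5 * σ, Or.inr (Or.inl (by rw [hσ]; ring))⟩
    · have hc2 : IsCoprime B₂ A' := (IsCoprime.of_mul_right_right hc').symm
      have h3 : B₂ * A' = n₁ ^ 2 := by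
        have : 5 * (B₂ * A') = 5 * n₁ ^ 2 := by rw [← h2]; ring
        exact mul_left_cancel₀ (by norm_num) this
      obtain ⟨σ, hσ | hσ⟩ := sq_of_coprime_mul hc2 h3
      · exact ⟨5 * σ, Or.inr (Or.inr (Or.inl (by rw [hσ]; ring)))⟩
      · exact ⟨5 * σ, Or.inr (Or.inr (Or.inr (by rw [hσ]; ring)))⟩

/-! ### The core algebraic step of the descent -/

/-- Core step: from `a² + b² = c² + d²`, `c d = 9 a b` with `c`, `d` coprime of opposite parity we
produce a new solution of the system with `z = a b`. -/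
theorem core {a b c d : ℤ} (hsum : a ^ 2 + b ^ 2 = c ^ 2 + d ^ 2) (hprod : c * d = 9 * (a * b))
    (hcd : IsCoprime c d) (hpar : (c ^ 2 - d ^ 2) % 2 = 1) :
    ∃ u' v' w' : ℤ, u' ^ 2 - v' ^ 2 = (a * b) ^ 2 ∧ u' ^ 2 - w' ^ 2 = 81 * (a * b) ^ 2 := by
  set A : ℤ := a ^ 2 - d ^ 2 with hA
  set B : ℤ := a ^ 2 - c ^ 2 with hB
  have hAB : A * B = 5 * (4 * a * b) ^ 2 := by
    rw [hA, hB]
    linear_combination (a ^ 2) * hsum + (c * d + 9 * (a * b)) * hprod
  -- the gcd of `A` and `B` divides `5`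
  have hg : (Int.gcd A B : ℤ) ∣ 5 := by
    set g : ℤ := (Int.gcd A B : ℤ) with hgdef
    have hgA : g ∣ A := Int.gcd_dvd_left A B
    have hgB : g ∣ B := Int.gcd_dvd_right A B
    -- `g` is coprime to `a`
    have hga : IsCoprime g a := by
      rw [Int.isCoprime_iff_gcd_eq_one]
      have h1 : ((Int.gcd g a : ℤ)) ∣ g := Int.gcd_dvd_left g a
      have h2 : ((Int.gcd g a : ℤ)) ∣ a := Int.gcd_dvd_right g a
      have hd2 : ((Int.gcd g a : ℤ)) ∣ d ^ 2 := by
        have : d ^ 2 = a ^ 2 - A := by rw [hA]; ring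
        rw [this]
        exact dvd_sub (Dvd.dvd.pow h2 two_ne_zero) (h1.trans hgA)
      have hc2 : ((Int.gcd g a : ℤ)) ∣ c ^ 2 := by
        have : c ^ 2 = a ^ 2 - B := by rw [hB]; ring
        rw [this]
        exact dvd_sub (Dvd.dvd.pow h2 two_ne_zero) (h1.trans hgB)
      have hcop : IsCoprime (c ^ 2) (d ^ 2) := hcd.pow
      have hu : IsUnit ((Int.gcd g a : ℤ)) := hcop.isUnit_of_dvd' hc2 hd2
      have := Int.isUnit_iff.mp hu
      rcases this with h | h
      · exact_mod_cast h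
      · have hnn : (0 : ℤ) ≤ (Int.gcd g a : ℤ) := by positivity
        omega
    -- `g ∣ 80 a⁴`
    have h80 : g ∣ 80 * a ^ 4 := by
      have hid : 80 * a ^ 4 = 80 * a ^ 2 * (A + B) + A * B := by
        rw [hA, hB]
        linear_combination (-81 * a ^ 2) * hsum - (c * d + 9 * (a * b)) * hprod
      rw [hid]
      exact dvd_add (Dvd.dvd.mul_left (dvd_add hgA hgB) _) (Dvd.dvd.mul_right hgA _)
    have hg80 : g ∣ 80 := (hga.pow_right (n := 4)).dvd_of_dvd_mul_right h80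
    -- `g` is odd
    have hodd : IsCoprime g 2 := by
      have hp2 : Prime (2 : ℤ) := Int.prime_two
      rw [isCoprime_comm, hp2.coprime_iff_not_dvd]
      intro h2
      have h2A : (2 : ℤ) ∣ A := h2.trans hgA
      have h2B : (2 : ℤ) ∣ B := h2.trans hgB
      have : (2 : ℤ) ∣ A - B := dvd_sub h2A h2B
      have hAB' : A - B = c ^ 2 - d ^ 2 := by rw [hA, hB]; ring
      rw [hAB'] at this
      omega
    have h16 : IsCoprime g 16 := by
      have : (16 : ℤ) = 2 ^ 4 := by norm_num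
      rw [this]
      exact hodd.pow_right
    have : g ∣ 16 * 5 := by norm_num; exact hg80
    exact h16.dvd_of_dvd_mul_left this
  obtain ⟨τ, hτ | hτ | hτ | hτ⟩ := five_mul_sq hAB hg
  · -- `a² - d² = τ²`
    refine ⟨a * c, a * τ, c * τ, ?_, ?_⟩
    · have : τ ^ 2 = c ^ 2 - b ^ 2 := by rw [← hτ, hA]; linear_combination hsum
      linear_combination (-(a ^ 2)) * this
    · have : τ ^ 2 = a ^ 2 - d ^ 2 := by rw [← hτ]
      linear_combination (-(c ^ 2)) * this + (c * d + 9 * (a * b)) * hprod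
  · -- `d² - a² = τ²`
    refine ⟨b * d, b * τ, d * τ, ?_, ?_⟩
    · have : τ ^ 2 = d ^ 2 - a ^ 2 := by
        have : A = -τ ^ 2 := hτ
        rw [hA] at this; linear_combination this
      linear_combination (-(b ^ 2)) * this
    · have : τ ^ 2 = b ^ 2 - c ^ 2 := by
        have h' : A = -τ ^ 2 := hτ
        rw [hA] at h'; linear_combination h' - hsum
      linear_combination (-(d ^ 2)) * this + (c * d + 9 * (a * b)) * hprod
  · -- `a² - c² = τ²`
    refine ⟨a * d, a * τ, d * τ, ?_, ?_⟩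
    · have : τ ^ 2 = d ^ 2 - b ^ 2 := by rw [← hτ, hB]; linear_combination hsum
      linear_combination (-(a ^ 2)) * this
    · have : τ ^ 2 = a ^ 2 - c ^ 2 := by rw [← hτ]
      linear_combination (-(d ^ 2)) * this + (c * d + 9 * (a * b)) * hprod
  · -- `c² - a² = τ²`
    refine ⟨b * c, b * τ, c * τ, ?_, ?_⟩
    · have : τ ^ 2 = c ^ 2 - a ^ 2 := by
        have h' : B = -τ ^ 2 := hτ
        rw [hB] at h'; linear_combination h'
      linear_combination (-(b ^ 2)) * this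
    · have : τ ^ 2 = b ^ 2 - d ^ 2 := by
        have h' : B = -τ ^ 2 := hτ
        rw [hB] at h'; linear_combination h' - hsum
      linear_combination (-(c ^ 2)) * this + (c * d + 9 * (a * b)) * hprod

/-! ### The descent step for primitive solutions -/

theorem descent_step {u v w z : ℤ} (hz : z ≠ 0) (hu : 0 < u) (hg : Int.gcd u z = 1)
    (h1 : u ^ 2 - v ^ 2 = z ^ 2) (h2 : u ^ 2 - w ^ 2 = 81 * z ^ 2) :
    ∃ u' v' w' z' : ℤ, z' ≠ 0 ∧ z'.natAbs < z.natAbs ∧ u' ^ 2 - v' ^ 2 = z' ^ 2 ∧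
      u' ^ 2 - w' ^ 2 = 81 * z' ^ 2 := by
  have hcuz : IsCoprime u z := Int.isCoprime_iff_gcd_eq_one.mpr hg
  -- `v` and `z` are coprime
  have hcvz : IsCoprime v z := by
    obtain ⟨α, β, hαβ⟩ := (hcuz.pow_left : IsCoprime (u ^ 2) z)
    have : IsCoprime (v ^ 2) z := ⟨α, α * z + β, by linear_combination hαβ - α * h1⟩
    exact (IsCoprime.pow_left_iff (by norm_num : 0 < 2)).mp this
  -- `w` and `z` are coprime
  have hcwz : IsCoprime w z := by
    obtain ⟨α, β, hαβ⟩ := (hcuz.pow_left : IsCoprime (u ^ 2) z)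
    have : IsCoprime (w ^ 2) z := ⟨α, 81 * α * z + β, by linear_combination hαβ - α * h2⟩
    exact (IsCoprime.pow_left_iff (by norm_num : 0 < 2)).mp this
  -- `3` does not divide `w`
  have h3w : ¬ (3 : ℤ) ∣ w := by
    intro h3
    have hw3 : w % 3 = 0 := Int.emod_eq_zero_of_dvd h3
    have hu3 : u % 3 = 0 := by
      rcases sq_mod_three u with ⟨hu0, _⟩ | ⟨_, hu1⟩
      · exact hu0
      · rcases sq_mod_three w with ⟨_, hw0⟩ | ⟨hw1, _⟩
        · omega
        · omega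
    have hz3 : z % 3 = 0 := by
      rcases sq_mod_three u with ⟨_, hu0⟩ | ⟨hu1, _⟩
      · rcases sq_mod_three z with ⟨hz0, _⟩ | ⟨_, hz1⟩
        · exact hz0
        · rcases sq_mod_three v with ⟨_, hv0⟩ | ⟨_, hv1⟩ <;> omega
      · omega
    have hd : (3 : ℤ) ∣ Int.gcd u z :=
      Int.dvd_coe_gcd (Int.dvd_of_emod_eq_zero hu3) (Int.dvd_of_emod_eq_zero hz3)
    rw [hg] at hd
    norm_num at hd
  have hcw9z : IsCoprime w (9 * z) := by
    have hp3 : Prime (3 : ℤ) := Int.prime_three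
    have hc3 : IsCoprime w 3 := (isCoprime_comm.mp ((hp3.coprime_iff_not_dvd).mpr h3w))
    have hc9 : IsCoprime w 9 := by
      have : (9 : ℤ) = 3 ^ 2 := by norm_num
      rw [this]; exact hc3.pow_right
    exact hc9.mul_right hcwz
  -- the two Pythagorean triples
  have hP1 : PythagoreanTriple v z u := by
    unfold PythagoreanTriple; linear_combination -h1
  have hP2 : PythagoreanTriple w (9 * z) u := by
    unfold PythagoreanTriple; linear_combination -h2
  obtain ⟨m, n, hmn, hum, hgmn, hpmn⟩ := PythagoreanTriple.coprime_classification.mp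
    ⟨hP1, Int.isCoprime_iff_gcd_eq_one.mp hcvz⟩
  obtain ⟨p, q, hpq, hup, hgpq, hppq⟩ := PythagoreanTriple.coprime_classification.mp
    ⟨hP2, Int.isCoprime_iff_gcd_eq_one.mp hcw9z⟩
  have hum' : u = m ^ 2 + n ^ 2 := by
    rcases hum with h | h
    · exact h
    · have : 0 ≤ m ^ 2 + n ^ 2 := by positivity
      omega
  have hup' : u = p ^ 2 + q ^ 2 := by
    rcases hup with h | h
    · exact h
    · have : 0 ≤ p ^ 2 + q ^ 2 := by positivity
      omega
  -- parities of the squares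
  have hm2 := sq_mod_four m
  have hn2 := sq_mod_four n
  have hp2 := sq_mod_four p
  have hq2 := sq_mod_four q
  rcases hmn with ⟨hv, hzmn⟩ | ⟨hv, hzmn⟩
  · rcases hpq with ⟨hw, hzpq⟩ | ⟨hw, hzpq⟩
    · -- the main case: `z = 2 m n`, `9 z = 2 p q`
      have hprod : p * q = 9 * (m * n) := by
        have : 2 * (p * q) = 2 * (9 * (m * n)) := by
          have e1 : 9 * z = 2 * (p * q) := by rw [hzpq]; ring
          have e2 : z = 2 * (m * n) := by rw [hzmn]; ring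
          rw [← e1, e2]; ring
        exact mul_left_cancel₀ (by norm_num) this
      have hsum : m ^ 2 + n ^ 2 = p ^ 2 + q ^ 2 := by rw [← hum', ← hup']
      have hpar : (p ^ 2 - q ^ 2) % 2 = 1 := by omega
      obtain ⟨u', v', w', e1, e2⟩ := core hsum hprod
        (Int.isCoprime_iff_gcd_eq_one.mpr hgpq) hpar
      have hz2 : z = 2 * (m * n) := by rw [hzmn]; ring
      have hmn0 : m * n ≠ 0 := by
        intro h0; apply hz; rw [hz2, h0]; ring
      refine ⟨u', v', w', m * n, hmn0, ?_, e1, e2⟩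
      have : z.natAbs = 2 * (m * n).natAbs := by
        rw [hz2, Int.natAbs_mul]; rfl
      have hpos : 0 < (m * n).natAbs := Int.natAbs_pos.mpr hmn0
      omega
    · -- `z` even and `9 z` odd: impossible
      exfalso
      have e2 : z = 2 * (m * n) := by rw [hzmn]; ring
      generalize m * n = k at e2
      omega
  · rcases hpq with ⟨hw, hzpq⟩ | ⟨hw, hzpq⟩
    · -- `z` odd and `9 z` even: impossible
      exfalso
      have e1 : 9 * z = 2 * (p * q) := by rw [hzpq]; ring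
      generalize p * q = k at e1
      omega
    · -- both odd: contradiction modulo `8`
      exfalso
      have hp8 := sq_mod_eight p
      have hq8 := sq_mod_eight q
      have e1 : p ^ 2 = 5 * m ^ 2 - 4 * n ^ 2 := by
        have : 2 * p ^ 2 = 2 * (5 * m ^ 2 - 4 * n ^ 2) := by
          have : p ^ 2 + q ^ 2 = m ^ 2 + n ^ 2 := by rw [← hum', ← hup']
          linear_combination this + hzpq.symm - 9 * hzmn.symm + 0 * hzmn
        exact mul_left_cancel₀ (by norm_num) this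
      have e2 : q ^ 2 = 5 * n ^ 2 - 4 * m ^ 2 := by
        have : p ^ 2 + q ^ 2 = m ^ 2 + n ^ 2 := by rw [← hum', ← hup']
        linear_combination this - e1
      rcases hpmn with ⟨hm0, hn1⟩ | ⟨hm1, hn0⟩
      · have hn8 := sq_mod_eight_of_odd hn1
        have hm4 := sq_mod_four_of_even hm0
        omega
      · have hm8 := sq_mod_eight_of_odd hm1
        have hn4 := sq_mod_four_of_even hn0
        omega

/-! ### Reduction to primitive solutions and the main lemma -/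

theorem reduce {u v w z : ℤ} (hz : z ≠ 0) (h1 : u ^ 2 - v ^ 2 = z ^ 2)
    (h2 : u ^ 2 - w ^ 2 = 81 * z ^ 2) :
    ∃ u' v' w' z' : ℤ, z' ≠ 0 ∧ z'.natAbs ≤ z.natAbs ∧ 0 < u' ∧ Int.gcd u' z' = 1 ∧
      u' ^ 2 - v' ^ 2 = z' ^ 2 ∧ u' ^ 2 - w' ^ 2 = 81 * z' ^ 2 := by
  have hgpos : 0 < Int.gcd u z := Int.gcd_pos_of_ne_zero_right u hz
  obtain ⟨u₁, z₁, hc, hu, hzz⟩ := Int.exists_gcd_one hgpos
  have hgposZ : (0 : ℤ) < (Int.gcd u z : ℤ) := by exact_mod_cast hgpos
  set g : ℤ := (Int.gcd u z : ℤ) with hgdef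
  have hg0 : g ≠ 0 := by omega
  -- `g ∣ v`
  have hgv : g ∣ v := by
    have : g ^ 2 ∣ v ^ 2 := by
      refine ⟨u₁ ^ 2 - z₁ ^ 2, ?_⟩
      have : v ^ 2 = u ^ 2 - z ^ 2 := by linear_combination -h1
      rw [this, hu, hzz]; ring
    exact (Int.pow_dvd_pow_iff two_ne_zero).mp this
  have hgw : g ∣ w := by
    have : g ^ 2 ∣ w ^ 2 := by
      refine ⟨u₁ ^ 2 - 81 * z₁ ^ 2, ?_⟩
      have : w ^ 2 = u ^ 2 - 81 * z ^ 2 := by linear_combination -h2
      rw [this, hu, hzz]; ring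
    exact (Int.pow_dvd_pow_iff two_ne_zero).mp this
  obtain ⟨v₁, hv⟩ := hgv
  obtain ⟨w₁, hw⟩ := hgw
  have hg2 : g ^ 2 ≠ 0 := pow_ne_zero 2 hg0
  have e1 : u₁ ^ 2 - v₁ ^ 2 = z₁ ^ 2 := by
    have : g ^ 2 * (u₁ ^ 2 - v₁ ^ 2) = g ^ 2 * z₁ ^ 2 := by
      have h1' := h1
      rw [hu, hzz, hv] at h1'
      linear_combination h1'
    exact mul_left_cancel₀ hg2 this
  have e2 : u₁ ^ 2 - w₁ ^ 2 = 81 * z₁ ^ 2 := by
    have : g ^ 2 * (u₁ ^ 2 - w₁ ^ 2) = g ^ 2 * (81 * z₁ ^ 2) := by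
      have h2' := h2
      rw [hu, hzz, hw] at h2'
      linear_combination h2'
    exact mul_left_cancel₀ hg2 this
  have hz₁ : z₁ ≠ 0 := by
    intro h0; apply hz; rw [hzz, h0]; ring
  have hle : z₁.natAbs ≤ z.natAbs := by
    rw [hzz, Int.natAbs_mul]
    have : 1 ≤ g.natAbs := Int.natAbs_pos.mpr hg0
    nlinarith [Nat.zero_le z₁.natAbs]
  have hu₁ : u₁ ≠ 0 := by
    intro h0
    have hz2 : 0 < z₁ ^ 2 := by positivity
    have hv2 : 0 ≤ v₁ ^ 2 := by positivity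
    rw [h0] at e1
    nlinarith
  refine ⟨|u₁|, v₁, w₁, z₁, hz₁, hle, abs_pos.mpr hu₁, ?_, ?_, ?_⟩
  · rw [Int.gcd_eq_natAbs, Int.natAbs_abs, ← Int.gcd_eq_natAbs]; exact hc
  · rw [sq_abs]; exact e1
  · rw [sq_abs]; exact e2

/-- **Main lemma**: there are no two Pythagorean triangles with a common hypotenuse whose legs are
`z` and `9 z`, `z ≠ 0`. -/
theorem main_int (u v w z : ℤ) (h1 : u ^ 2 - v ^ 2 = z ^ 2) (h2 : u ^ 2 - w ^ 2 = 81 * z ^ 2) :
    z = 0 := by
  suffices H : ∀ n : ℕ, ∀ u v w z : ℤ, z.natAbs = n → u ^ 2 - v ^ 2 = z ^ 2 →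
      u ^ 2 - w ^ 2 = 81 * z ^ 2 → z = 0 from H _ u v w z rfl h1 h2
  intro n
  induction n using Nat.strong_induction_on with
  | _ n ih =>
    intro u v w z hn h1 h2
    by_contra hz
    obtain ⟨u₁, v₁, w₁, z₁, hz₁, hle, hu₁, hg, e1, e2⟩ := reduce hz h1 h2
    obtain ⟨u₂, v₂, w₂, z₂, hz₂, hlt, f1, f2⟩ := descent_step hz₁ hu₁ hg e1 e2
    exact hz₂ (ih z₂.natAbs (by omega) u₂ v₂ w₂ z₂ rfl f1 f2)

/-- Rational version of the main lemma. -/
theorem main_rat (u v w z : ℚ) (h1 : u ^ 2 - v ^ 2 = z ^ 2) (h2 : u ^ 2 - w ^ 2 = 81 * z ^ 2) :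
    z = 0 := by
  -- clear denominators
  set D : ℤ := (u.den : ℤ) * v.den * w.den * z.den with hD
  have hD0 : (D : ℚ) ≠ 0 := by
    rw [hD]; push_cast
    have := u.den_ne_zero; have := v.den_ne_zero; have := w.den_ne_zero; have := z.den_ne_zero
    positivity
  have hu : (D : ℚ) * u = ((u.num * v.den * w.den * z.den : ℤ) : ℚ) := by
    rw [hD]; push_cast
    have := Rat.mul_den_eq_num u
    linear_combination (v.den : ℚ) * w.den * z.den * this
  have hv : (D : ℚ) * v = ((u.den * v.num * w.den * z.den : ℤ) : ℚ) := by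
    rw [hD]; push_cast
    have := Rat.mul_den_eq_num v
    linear_combination (u.den : ℚ) * w.den * z.den * this
  have hw : (D : ℚ) * w = ((u.den * v.den * w.num * z.den : ℤ) : ℚ) := by
    rw [hD]; push_cast
    have := Rat.mul_den_eq_num w
    linear_combination (u.den : ℚ) * v.den * z.den * this
  have hz : (D : ℚ) * z = ((u.den * v.den * w.den * z.num : ℤ) : ℚ) := by
    rw [hD]; push_cast
    have := Rat.mul_den_eq_num z
    linear_combination (u.den : ℚ) * v.den * w.den * this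
  have key := main_int (u.num * v.den * w.den * z.den) (u.den * v.num * w.den * z.den)
    (u.den * v.den * w.num * z.den) (u.den * v.den * w.den * z.num) ?_ ?_
  · have : (D : ℚ) * z = 0 := by rw [hz, key]; simp
    rcases mul_eq_zero.mp this with h | h
    · exact absurd h hD0
    · exact h
  · have : (((u.num * v.den * w.den * z.den : ℤ) : ℚ)) ^ 2 -
        ((u.den * v.num * w.den * z.den : ℤ) : ℚ) ^ 2 =
        ((u.den * v.den * w.den * z.num : ℤ) : ℚ) ^ 2 := by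
      rw [← hu, ← hv, ← hz]; linear_combination (D : ℚ) ^ 2 * h1
    exact_mod_cast this
  · have : (((u.num * v.den * w.den * z.den : ℤ) : ℚ)) ^ 2 -
        ((u.den * v.den * w.num * z.den : ℤ) : ℚ) ^ 2 =
        81 * ((u.den * v.den * w.den * z.num : ℤ) : ℚ) ^ 2 := by
      rw [← hu, ← hw, ← hz]; linear_combination (D : ℚ) ^ 2 * h2
    exact_mod_cast this

/-! ### The two elliptic curves -/

/-- Rational points of `Y² = X (X - 1) (X - 81)` have `Y = 0`. -/
theorem curveC (X Y : ℚ) (h : Y ^ 2 = X * (X - 1) * (X - 81)) : Y = 0 := by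
  have key := main_rat (X ^ 2 - 81) (X ^ 2 - 2 * X + 81) (X ^ 2 - 162 * X + 81) (2 * Y)
    (by linear_combination (-4 : ℚ) * h) (by linear_combination (-324 : ℚ) * h)
  linarith

/-- **Rank zero**: the rational points of `y² = x (x + 9) (x - 16)` have
`x ∈ {0, -9, 16, 36, -4}`. -/
theorem rank_zero_15a (x y : ℚ) (h : y ^ 2 = x * (x + 9) * (x - 16)) :
    x = 0 ∨ x = -9 ∨ x = 16 ∨ x = 36 ∨ x = -4 := by
  by_cases h16 : x = 16
  · exact Or.inr (Or.inr (Or.inl h16))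
  have hx : x - 16 ≠ 0 := sub_ne_zero.mpr h16
  have key := curveC (x * (x + 9) / (x - 16)) (y * (x + 4) * (x - 36) / (x - 16) ^ 2) (by
    field_simp
    linear_combination ((x + 4) ^ 2 * (x - 36) ^ 2) * h)
  have hnum : y * (x + 4) * (x - 36) = 0 := by
    have h2 : (x - 16) ^ 2 ≠ 0 := pow_ne_zero 2 hx
    rcases div_eq_zero_iff.mp key with h0 | h0
    · exact h0
    · exact absurd h0 h2
  rcases mul_eq_zero.mp hnum with h0 | h0
  · rcases mul_eq_zero.mp h0 with hy | h4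
    · -- `y = 0`
      rw [hy] at h
      have : x * (x + 9) * (x - 16) = 0 := by linear_combination -h
      rcases mul_eq_zero.mp this with h' | h'
      · rcases mul_eq_zero.mp h' with h'' | h''
        · exact Or.inl h''
        · exact Or.inr (Or.inl (by linarith))
      · exact Or.inr (Or.inr (Or.inl (by linarith)))
    · exact Or.inr (Or.inr (Or.inr (Or.inr (by linarith))))
  · exact Or.inr (Or.inr (Or.inr (Or.inl (by linarith))))

end Fermat.Agent.S51.RankZero
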