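/-
`X₀(15)`: from the `(s,t)`-model `(s+27)(s+3)³ t = (t²+10t+5)³ s` (fibre product of `X₀(3)` and
`X₀(5)` over the `j`-line) to the elliptic curve `y² = x(x+9)(x-16)` (15a1), and the resulting
finite list of `t`-values, given that 15a1 has rank zero.

The explicit rational functions `w = Nw/d`, `v = Nv/d` and the cofactors were found by
helper26 (q-expansions of eta quotients and exact pseudo-division); here they are only
verified by `ring`.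
-/
import Mathlib

set_option autoImplicit false

namespace Fermat.Agent.S51.X015

/-- numerator of `w` -/
def Nw (s t : ℚ) : ℚ :=
    3 * s ^ 3 * t ^ 2 + 25 * s ^ 3 * t + s ^ 2 * t ^ 4 + 25 * s ^ 2 * t ^ 3 + 254 * s ^ 2 * t ^ 2
    + 900 * s ^ 2 * t + 9 * s * t ^ 5 + 210 * s * t ^ 4 + 1740 * s * t ^ 3 + 6063 * s * t ^ 2 + 6750 * s * t
    - t ^ 6 - 15 * t ^ 5 - 54 * t ^ 4 - 25 * t ^ 3 + 9 * t ^ 2 - 225 * t - 3125

/-- numerator of `v` -/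
def Nv (s t : ℚ) : ℚ :=
    -s ^ 3 * t ^ 3 + 2 * s ^ 3 * t ^ 2 + 25 * s ^ 3 * t - 18 * s ^ 2 * t ^ 3 + 216 * s ^ 2 * t ^ 2
    + 900 * s ^ 2 * t + 9 * s * t ^ 5 + 180 * s * t ^ 4 + 1269 * s * t ^ 3 + 5742 * s * t ^ 2 + 6750 * s * t
    + t ^ 8 + 28 * t ^ 7 + 275 * t ^ 6 + 1090 * t ^ 5 + 1450 * t ^ 4 + 272 * t ^ 3 + 11 * t ^ 2
    - 100 * t - 3125

/-- common denominator of `w` and `v` -/
def dd (t : ℚ) : ℚ := t * (t ^ 2 + 4 * t - 1) * (t ^ 2 + 10 * t + 5) ^ 2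

/-- the equation of the `(s,t)`-model -/
def FF (s t : ℚ) : ℚ := (s + 27) * (s + 3) ^ 3 * t - (t ^ 2 + 10 * t + 5) ^ 3 * s

/-- part 0 of `QG` -/
def QG_0 (s t : ℚ) : ℚ :=
    -3 * s ^ 5 * t ^ 7 - 22 * s ^ 5 * t ^ 6 + 106 * s ^ 5 * t ^ 5 + 750 * s ^ 5 * t ^ 4 + 625 * s ^ 5 * t ^ 3
    - s ^ 4 * t ^ 9 - 27 * s ^ 4 * t ^ 8 - 296 * s ^ 4 * t ^ 7 + 184 * s ^ 4 * t ^ 6 + 18143 * s ^ 4 * t ^ 5
    + 65875 * s ^ 4 * t ^ 4 + 46250 * s ^ 4 * t ^ 3 - 10 * s ^ 3 * t ^ 10 - 222 * s ^ 3 * t ^ 9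
    - 1125 * s ^ 3 * t ^ 8 + 11159 * s ^ 3 * t ^ 7 + 190776 * s ^ 3 * t ^ 6 + 1060752 * s ^ 3 * t ^ 5
    + 2212375 * s ^ 3 * t ^ 4 + 1224375 * s ^ 3 * t ^ 3

/-- part 1 of `QG` -/
def QG_1 (s t : ℚ) : ℚ :=
    3 * s ^ 2 * t ^ 12 + 119 * s ^ 2 * t ^ 11 + 1851 * s ^ 2 * t ^ 10 + 18494 * s ^ 2 * t ^ 9 + 176401 * s ^ 2 * t ^ 8
    + 1466313 * s ^ 2 * t ^ 7 + 8005028 * s ^ 2 * t ^ 6 + 24097356 * s ^ 2 * t ^ 5 + 32642250 * s ^ 2 * t ^ 4
    + 13543750 * s ^ 2 * t ^ 3 - 78125 * s ^ 2 * t ^ 2 + s * t ^ 14 + 56 * s * t ^ 13 + 1470 * s * t ^ 12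
    + 23188 * s * t ^ 11 + 238790 * s * t ^ 10 + 1699138 * s * t ^ 9 + 8882325 * s * t ^ 8 + 35357212 * s * t ^ 7
    + 102200623 * s * t ^ 6

/-- part 2 of `QG` -/
def QG_2 (s t : ℚ) : ℚ :=
    184912546 * s * t ^ 5 + 168334125 * s * t ^ 4 + 49857500 * s * t ^ 3 - 2968750 * s * t ^ 2
    + 9 * t ^ 15 + 489 * t ^ 14 + 11481 * t ^ 13 + 152523 * t ^ 12 + 1259355 * t ^ 11 + 6670221 * t ^ 10
    + 22526265 * t ^ 9 + 46587978 * t ^ 8 + 54135084 * t ^ 7 + 29103069 * t ^ 6 - 2158962 * t ^ 5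
    - 34234875 * t ^ 4 - 58260000 * t ^ 3 - 25078125 * t ^ 2

/-- cofactor for the relation `G(w,v) = 0` -/
def QG (s t : ℚ) : ℚ :=
    QG_0 s t + QG_1 s t + QG_2 s t

/-- part 0 of `QK` -/
def QK_0 (s t : ℚ) : ℚ :=
    81 * s ^ 8 * t ^ 8 + 2700 * s ^ 8 * t ^ 7 + 33750 * s ^ 8 * t ^ 6 + 187500 * s ^ 8 * t ^ 5
    + 390625 * s ^ 8 * t ^ 4 + 108 * s ^ 7 * t ^ 10 + 5400 * s ^ 7 * t ^ 9 + 114516 * s ^ 7 * t ^ 8
    + 1310800 * s ^ 7 * t ^ 7 + 8492500 * s ^ 7 * t ^ 6 + 29375000 * s ^ 7 * t ^ 5 + 42187500 * s ^ 7 * t ^ 4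
    + 54 * s ^ 6 * t ^ 12 + 4572 * s ^ 6 * t ^ 11 + 153024 * s ^ 6 * t ^ 10 + 2753220 * s ^ 6 * t ^ 9
    + 29708472 * s ^ 6 * t ^ 8 + 199084500 * s ^ 6 * t ^ 7 + 814455000 * s ^ 6 * t ^ 6 + 1866187500 * s ^ 6 * t ^ 5

/-- part 1 of `QK` -/
def QK_1 (s t : ℚ) : ℚ :=
    1835156250 * s ^ 6 * t ^ 4 + 12 * s ^ 5 * t ^ 14 + 1810 * s ^ 5 * t ^ 13 + 90120 * s ^ 5 * t ^ 12
    + 2356734 * s ^ 5 * t ^ 11 + 37800484 * s ^ 5 * t ^ 10 + 396324940 * s ^ 5 * t ^ 9 + 2770717908 * s ^ 5 * t ^ 8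
    + 12763347500 * s ^ 5 * t ^ 7 + 36932290000 * s ^ 5 * t ^ 6 + 60068531250 * s ^ 5 * t ^ 5 + 40964062500 * s ^ 5 * t ^ 4
    - 97656250 * s ^ 5 * t ^ 3 + s ^ 4 * t ^ 16 + 289 * s ^ 4 * t ^ 15 + 24368 * s ^ 4 * t ^ 14
    + 973909 * s ^ 4 * t ^ 13 + 22715177 * s ^ 4 * t ^ 12 + 341833758 * s ^ 4 * t ^ 11 + 3492073552 * s ^ 4 * t ^ 10

/-- part 2 of `QK` -/
def QK_2 (s t : ℚ) : ℚ :=
    24747676230 * s ^ 4 * t ^ 9 + 121557571985 * s ^ 4 * t ^ 8 + 403728263225 * s ^ 4 * t ^ 7 + 854710662500 * s ^ 4 * t ^ 6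
    + 1016716578125 * s ^ 4 * t ^ 5 + 490744140625 * s ^ 4 * t ^ 4 - 7031250000 * s ^ 4 * t ^ 3
    + 9 * s ^ 3 * t ^ 17 + 2595 * s ^ 3 * t ^ 16 + 174150 * s ^ 3 * t ^ 15 + 5923026 * s ^ 3 * t ^ 14
    + 125120715 * s ^ 3 * t ^ 13 + 1789788105 * s ^ 3 * t ^ 12 + 18058310028 * s ^ 3 * t ^ 11 + 130644081744 * s ^ 3 * t ^ 10
    + 677253125655 * s ^ 3 * t ^ 9 + 2474075926593 * s ^ 3 * t ^ 8 + 6139810975350 * s ^ 3 * t ^ 7
    + 9664614978750 * s ^ 3 * t ^ 6 + 8432665453125 * s ^ 3 * t ^ 5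

/-- part 3 of `QK` -/
def QK_3 (s t : ℚ) : ℚ :=
    2874882421875 * s ^ 3 * t ^ 4 - 179296875000 * s ^ 3 * t ^ 3 + 3 * s ^ 2 * t ^ 19 + 178 * s ^ 2 * t ^ 18
    + 10968 * s ^ 2 * t ^ 17 + 560238 * s ^ 2 * t ^ 16 + 17882555 * s ^ 2 * t ^ 15 + 366326707 * s ^ 2 * t ^ 14
    + 5105506788 * s ^ 2 * t ^ 13 + 50394984062 * s ^ 2 * t ^ 12 + 360175008605 * s ^ 2 * t ^ 11
    + 1877770650957 * s ^ 2 * t ^ 10 + 7099409502100 * s ^ 2 * t ^ 9 + 19071976858478 * s ^ 2 * t ^ 8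
    + 34972104745125 * s ^ 2 * t ^ 7 + 40596781508125 * s ^ 2 * t ^ 6 + 25252099000000 * s ^ 2 * t ^ 5
    + 4191180468750 * s ^ 2 * t ^ 4 - 1896093750000 * s ^ 2 * t ^ 3 + 6103515625 * s ^ 2 * t ^ 2

/-- part 4 of `QK` -/
def QK_4 (s t : ℚ) : ℚ :=
    s * t ^ 21 + 76 * s * t ^ 20 + 2627 * s * t ^ 19 + 52094 * s * t ^ 18 + 590805 * s * t ^ 17
    + 2375699 * s * t ^ 16 - 36901580 * s * t ^ 15 - 762595796 * s * t ^ 14 - 7158556845 * s * t ^ 13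
    - 42354567715 * s * t ^ 12 - 168277838106 * s * t ^ 11 - 454809527882 * s * t ^ 10 - 872734155385 * s * t ^ 9
    - 1583392143799 * s * t ^ 8 - 4204920065100 * s * t ^ 7 - 11501374562500 * s * t ^ 6 - 20668662500000 * s * t ^ 5
    - 19652551953125 * s * t ^ 4 - 6963525390625 * s * t ^ 3 + 219726562500 * s * t ^ 2

/-- part 5 of `QK` -/
def QK_5 (s t : ℚ) : ℚ :=
    9 * t ^ 22 + 669 * t ^ 21 + 22332 * t ^ 20 + 442176 * t ^ 19 + 5777511 * t ^ 18 + 52427682 * t ^ 17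
    + 338543835 * t ^ 16 + 1567254306 * t ^ 15 + 5170505709 * t ^ 14 + 11924288379 * t ^ 13 + 18598403589 * t ^ 12
    + 19259675469 * t ^ 11 + 18913945179 * t ^ 10 + 47711730840 * t ^ 9 + 136701520134 * t ^ 8
    + 225064883700 * t ^ 7 + 222004320000 * t ^ 6 + 511625156250 * t ^ 5 + 1812168750000 * t ^ 4
    + 3196728515625 * t ^ 3

/-- part 6 of `QK` -/
def QK_6 (s t : ℚ) : ℚ :=
    1647949218750 * t ^ 2

/-- cofactor for the quartic relation between `w` and `t` -/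
def QK (s t : ℚ) : ℚ :=
    QK_0 s t + QK_1 s t + QK_2 s t + QK_3 s t + QK_4 s t + QK_5 s t + QK_6 s t

theorem G_identity (s t : ℚ) :
    Nw s t ^ 2 * Nv s t - Nw s t * Nv s t ^ 2 - 5 * Nw s t * Nv s t * dd t
      - 9 * Nw s t * dd t ^ 2 - Nv s t * dd t ^ 2 = QG s t * FF s t := by
  unfold Nw Nv dd QG FF QG_0 QG_1 QG_2
  ring

theorem K_identity (s t : ℚ) :
    t * Nw s t ^ 4 - (9 * t + 125) * Nw s t ^ 3 * dd t - (t ^ 2 + 9 * t) * Nw s t * dd t ^ 3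
      - t * dd t ^ 4 = QK s t * FF s t := by
  unfold Nw dd QK FF QK_0 QK_1 QK_2 QK_3 QK_4 QK_5 QK_6
  ring

theorem not_sq_five_int (n : ℤ) : n ^ 2 ≠ 5 := by
  intro h
  have h1 : n.natAbs ^ 2 = 5 := by
    have := congrArg Int.natAbs h
    simpa [Int.natAbs_pow] using this
  have h2 : n.natAbs < 3 := by
    by_contra hlt
    push Not at hlt
    have : 9 ≤ n.natAbs ^ 2 := by nlinarith
    omega
  interval_cases (n.natAbs) <;> omega

theorem not_sq_five (r : ℚ) : r ^ 2 ≠ 5 := by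
  intro h
  have h1 : IsSquare (5 : ℚ) := ⟨r, by rw [← h]; ring⟩
  rw [Rat.isSquare_iff] at h1
  obtain ⟨⟨n, hn⟩, -⟩ := h1
  have h5 : ((5 : ℚ)).num = 5 := by norm_num
  rw [h5] at hn
  exact not_sq_five_int n (by rw [hn]; ring)

theorem dd_ne_zero {t : ℚ} (ht : t ≠ 0) : dd t ≠ 0 := by
  unfold dd
  have h1 : t ^ 2 + 4 * t - 1 ≠ 0 := by
    intro h
    exact not_sq_five (t + 2) (by linear_combination h)
  have h2 : t ^ 2 + 10 * t + 5 ≠ 0 := by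
    intro h
    exact not_sq_five ((t + 5) / 2) (by linear_combination h / 4)
  exact mul_ne_zero (mul_ne_zero ht h1) (pow_ne_zero 2 h2)

/-- From the `(s,t)`-model of `X₀(15)` to the `(w,v)`-model. -/
theorem param_X0_15 (s t : ℚ) (_hs : s ≠ 0) (ht : t ≠ 0)
    (h : (s + 27) * (s + 3) ^ 3 * t = (t ^ 2 + 10 * t + 5) ^ 3 * s) :
    ∃ w v : ℚ, w ^ 2 * v - w * v ^ 2 - 5 * w * v - 9 * w - v = 0 ∧
      t * w ^ 4 - (9 * t + 125) * w ^ 3 - (t ^ 2 + 9 * t) * w - t = 0 := by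
  have hF : FF s t = 0 := by unfold FF; linear_combination h
  have hd := dd_ne_zero ht
  refine ⟨Nw s t / dd t, Nv s t / dd t, ?_, ?_⟩
  · have h1 := G_identity s t
    rw [hF, mul_zero] at h1
    have e : (Nw s t / dd t) ^ 2 * (Nv s t / dd t) - Nw s t / dd t * (Nv s t / dd t) ^ 2
        - 5 * (Nw s t / dd t) * (Nv s t / dd t) - 9 * (Nw s t / dd t) - Nv s t / dd t
        = (Nw s t ^ 2 * Nv s t - Nw s t * Nv s t ^ 2 - 5 * Nw s t * Nv s t * dd t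
          - 9 * Nw s t * dd t ^ 2 - Nv s t * dd t ^ 2) / dd t ^ 3 := by
      field_simp
    rw [e, h1, zero_div]
  · have h1 := K_identity s t
    rw [hF, mul_zero] at h1
    have e : t * (Nw s t / dd t) ^ 4 - (9 * t + 125) * (Nw s t / dd t) ^ 3
        - (t ^ 2 + 9 * t) * (Nw s t / dd t) - t
        = (t * Nw s t ^ 4 - (9 * t + 125) * Nw s t ^ 3 * dd t
          - (t ^ 2 + 9 * t) * Nw s t * dd t ^ 3 - t * dd t ^ 4) / dd t ^ 4 := by
      field_simp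
    rw [e, h1, zero_div]

/-- The `t`-coordinates of the rational points of the `(s,t)`-model of `X₀(15)` with `s t ≠ 0`,
assuming that `y² = x(x+9)(x-16)` has only the obvious rational points. -/
theorem t_values
    (hrank : ∀ x y : ℚ, y ^ 2 = x * (x + 9) * (x - 16) →
      x = 0 ∨ x = -9 ∨ x = 16 ∨ x = 36 ∨ x = -4)
    (s t : ℚ) (hs : s ≠ 0) (ht : t ≠ 0)
    (h : (s + 27) * (s + 3) ^ 3 * t = (t ^ 2 + 10 * t + 5) ^ 3 * s) :
    t = -40 ∨ t = -25 / 2 ∨ t = -10 ∨ t = -25 / 8 := by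
  obtain ⟨w, v, hG, hK⟩ := param_X0_15 s t hs ht h
  have hw : w ≠ 0 := by
    rintro rfl
    apply ht
    linear_combination -hK
  -- the point on 15a1
  have hXY : (8 * (w * (w * v - 9)) - 20 * (w * v)) ^ 2
      = (4 * (w * v)) * (4 * (w * v) + 9) * (4 * (w * v) - 16) := by
    linear_combination (64 * w * (w * v - 9)) * hG
  -- the relation between `w` and `X = w v`
  have hwX : w ^ 2 * (w * v - 9) - 5 * w * (w * v) - (w * v) ^ 2 - w * v = 0 := by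
    linear_combination w * hG
  have hw2 : w = -2 ∨ w = 1 / 2 := by
    rcases hrank _ _ hXY with hX | hX | hX | hX | hX
    · -- X = 0
      have hX0 : w * v = 0 := by linarith
      rw [hX0] at hwX
      have : w ^ 2 = 0 := by linarith
      exact absurd ((pow_eq_zero_iff (two_ne_zero)).mp this) hw
    · -- X = -9/4
      have hX0 : w * v = -9 / 4 := by linarith
      rw [hX0] at hwX
      right
      have : (w - 1 / 2) ^ 2 = 0 := by linear_combination (-4 / 45 : ℚ) * hwX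
      have := (pow_eq_zero_iff (two_ne_zero)).mp this
      linarith
    · -- X = 4
      have hX0 : w * v = 4 := by linarith
      rw [hX0] at hwX
      left
      have : (w + 2) ^ 2 = 0 := by linear_combination (-1 / 5 : ℚ) * hwX
      have := (pow_eq_zero_iff (two_ne_zero)).mp this
      linarith
    · -- X = 9
      have hX0 : w * v = 9 := by linarith
      rw [hX0] at hwX
      left
      linarith
    · -- X = -1
      have hX0 : w * v = -1 := by linarith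
      rw [hX0] at hwX
      right
      have h1 : w * (w - 1 / 2) = 0 := by linear_combination (-1 / 10 : ℚ) * hwX
      rcases mul_eq_zero.mp h1 with h2 | h2
      · exact absurd h2 hw
      · linarith
  rcases hw2 with rfl | rfl
  · -- w = -2 : 2 t² + 105 t + 1000 = 0
    have h1 : (t + 40) * (2 * t + 25) = 0 := by linear_combination hK
    rcases mul_eq_zero.mp h1 with h2 | h2
    · left; linarith
    · right; left; linarith
  · -- w = 1/2 : 8 t² + 105 t + 250 = 0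
    have h1 : (t + 10) * (8 * t + 25) = 0 := by linear_combination (-16 : ℚ) * hK
    rcases mul_eq_zero.mp h1 with h2 | h2
    · right; right; left; linarith
    · right; right; right; linarith

end Fermat.Agent.S51.X015
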