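import Mathlib.AlgebraicGeometry.EllipticCurve.Weierstrass

/-!
Shared definitions for the S51 development (team T-S51).

* `psi2 W x = 4x³ + b₂x² + 2b₄x + b₆` (the square of `2y + a₁x + a₃` on the curve),
* `phi2 W x = x⁴ - b₄x² - 2b₆x - b₈` (numerator of the `x`-coordinate of `2P`),
* `psi3 W x = 3x⁴ + b₂x³ + 3b₄x² + 3b₆x + b₈ = x * psi2 - phi2` (3-division polynomial).
-/

set_option autoImplicit false

namespace Fermat.Agent.S51

/-- `Ψ₂Sq(x) = 4x³ + b₂x² + 2b₄x + b₆` (the square of `2y + a₁x + a₃` on the curve). -/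
def psi2 {F : Type*} [CommRing F] (W : WeierstrassCurve F) (x : F) : F :=
  4 * x ^ 3 + W.b₂ * x ^ 2 + 2 * W.b₄ * x + W.b₆

/-- `Φ₂(x) = x⁴ - b₄x² - 2b₆x - b₈` (numerator of the x-coordinate of `2P`). -/
def phi2 {F : Type*} [CommRing F] (W : WeierstrassCurve F) (x : F) : F :=
  x ^ 4 - W.b₄ * x ^ 2 - 2 * W.b₆ * x - W.b₈

/-- The 3-division polynomial `3x⁴ + b₂x³ + 3b₄x² + 3b₆x + b₈`. -/
def psi3 {F : Type*} [CommRing F] (W : WeierstrassCurve F) (x : F) : F :=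
  3 * x ^ 4 + W.b₂ * x ^ 3 + 3 * W.b₄ * x ^ 2 + 3 * W.b₆ * x + W.b₈

theorem psi3_eq {F : Type*} [CommRing F] (W : WeierstrassCurve F) (x : F) :
    psi3 W x = x * psi2 W x - phi2 W x := by
  unfold psi3 psi2 phi2; ring

end Fermat.Agent.S51
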