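import Mathlib
import Fermat.Agent.S51.Defs

/-!
# S51 helpers: the doubling formula on the `x`-line and `3`-torsion

For a Weierstrass curve `W` over a field `F` (characteristic `≠ 2`) we show:
* `sq_sub_negY` : `(y - negY x y)² = Ψ₂Sq(x)` on the curve;
* `addX_self_eq` : the `x`-coordinate of `2 • (x, y)` is `phi2 x / psi2 x`;
* `three_nsmul_some_eq_zero_iff` : `3 • (x, y) = 0 ↔ Ψ₃(x) = 0` for a nonsingular point.
-/

set_option autoImplicit false

open WeierstrassCurve WeierstrassCurve.Affine Polynomial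

namespace Fermat.Agent.S51

variable {F : Type*} [Field F] (W : Affine F)

/-- the `x`-coordinate doubling map. -/
noncomputable def dblX (x : F) : F := phi2 W x / psi2 W x

lemma eval_Ψ₂Sq (x : F) : (WeierstrassCurve.Ψ₂Sq W).eval x = psi2 W x := by
  simp [WeierstrassCurve.Ψ₂Sq, psi2]

lemma eval_Ψ₃ (x : F) : (WeierstrassCurve.Ψ₃ W).eval x = psi3 W x := by
  simp [WeierstrassCurve.Ψ₃, psi3]

lemma x_mul_psi2_sub_phi2 (x : F) : x * psi2 W x - phi2 W x = psi3 W x := by
  simp only [psi2, phi2, psi3]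
  ring

variable {W}

lemma sq_sub_negY {x y : F} (h : W.Equation x y) : (y - W.negY x y) ^ 2 = psi2 W x := by
  rw [equation_iff] at h
  simp only [negY, psi2, WeierstrassCurve.b₂, WeierstrassCurve.b₄, WeierstrassCurve.b₆]
  linear_combination 4 * h

lemma psi2_ne_zero_iff {x y : F} (h : W.Equation x y) : psi2 W x ≠ 0 ↔ y ≠ W.negY x y := by
  rw [← sq_sub_negY h, ne_eq, ne_eq, sq_eq_zero_iff, sub_eq_zero]

variable [DecidableEq F]

lemma addX_self_eq {x y : F} (h : W.Equation x y) (hy : y ≠ W.negY x y) :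
    W.addX x x (W.slope x x y y) = dblX W x := by
  have hD : y - W.negY x y ≠ 0 := sub_ne_zero.mpr hy
  have hf : psi2 W x ≠ 0 := (psi2_ne_zero_iff h).mpr hy
  rw [slope_of_Y_ne rfl hy, dblX, eq_div_iff hf, ← sq_sub_negY h]
  have h' := (equation_iff x y).mp h
  simp only [addX]
  field_simp
  simp only [negY, phi2, WeierstrassCurve.b₄, WeierstrassCurve.b₆, WeierstrassCurve.b₈]
  linear_combination (-W.a₁ ^ 2 - 4 * W.a₂ - 8 * x) * h'

end Fermat.Agent.S51
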