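import Mathlib.AlgebraicGeometry.EllipticCurve.Weierstrass
import Mathlib.Tactic
import Fermat.Agent.S51.Defs

/-!
WP3 of the S51 development: the `X₀(3)` and `X₀(5)` parametrisations of the `j`-invariant,
expressed through the `b`-invariants of a Weierstrass curve.
-/

set_option autoImplicit false

namespace Fermat.Agent.S51

namespace Param

variable {F : Type*} [CommRing F] (W : WeierstrassCurve F)

/-- translated `b₂` -/
def B2 (r : F) : F := W.b₂ + 12 * r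
/-- translated `b₄` -/
def B4 (r : F) : F := W.b₄ + r * W.b₂ + 6 * r ^ 2

theorem c4_eq (r : F) : W.c₄ = B2 W r ^ 2 - 24 * B4 W r := by
  unfold B2 B4; rw [WeierstrassCurve.c₄]; ring

/-- translated `b`-relation -/
theorem b_relation_translate (r : F) :
    B2 W r * psi2 W r = B4 W r ^ 2 + 4 * psi3 W r := by
  unfold B2 B4 psi2 psi3
  linear_combination (-1 : F) * W.b_relation

/-- translation invariance of the discriminant, written with the translated `b`-invariants. -/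
theorem Δ_eq_translate (r : F) :
    W.Δ = -(B2 W r) ^ 2 * psi3 W r - 8 * B4 W r ^ 3 - 27 * psi2 W r ^ 2
      + 9 * B2 W r * B4 W r * psi2 W r := by
  unfold B2 B4 psi2 psi3
  rw [WeierstrassCurve.Δ]
  linear_combination (6 * r * W.b₂ + 36 * r ^ 2) * W.b_relation

end Param

section WP3

variable {F : Type*} [Field F] (W : WeierstrassCurve F)

open Param in
/-- WP3a (C1): a root of the 3-division polynomial gives the `X₀(3)` parameter. -/
theorem j_param_three {x : F} (h1 : psi2 W x ≠ 0) (h2 : phi2 W x = x * psi2 W x) :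
    ∃ s : F, W.c₄ ^ 3 * s = W.Δ * ((s + 27) * (s + 3) ^ 3) ∧
      s = (6 * x ^ 2 + W.b₂ * x + W.b₄) ^ 3 / (psi2 W x) ^ 2 - 27 := by
  refine ⟨_, ?_, rfl⟩
  have h3 : psi3 W x = 0 := by rw [psi3_eq, h2]; ring
  have hA : 6 * x ^ 2 + W.b₂ * x + W.b₄ = B4 W x := by unfold B4; ring
  rw [hA]
  have hBP : B2 W x * psi2 W x = B4 W x ^ 2 := by
    rw [b_relation_translate, h3]; ring
  have hΔ : W.Δ = B4 W x ^ 3 - 27 * psi2 W x ^ 2 := by
    rw [Δ_eq_translate W x, h3]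
    linear_combination (9 * B4 W x) * hBP
  have hc : W.c₄ = B2 W x ^ 2 - 24 * B4 W x := c4_eq W x
  have hB : B2 W x = B4 W x ^ 2 / psi2 W x := by
    rw [eq_div_iff h1]; exact hBP
  rw [hc, hΔ, hB]
  generalize B4 W x = A
  generalize psi2 W x = P at h1
  field_simp
  ring

namespace Param

theorem phi2_translate (r d : F) :
    phi2 W (r + d) - r * psi2 W (r + d) =
      d ^ 4 - B4 W r * d ^ 2 - 2 * psi2 W r * d - psi3 W r := by
  unfold B4 psi2 psi3 phi2; ring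

theorem psi2_translate (r d : F) :
    psi2 W (r + d) = 4 * d ^ 3 + B2 W r * d ^ 2 + 2 * B4 W r * d + psi2 W r := by
  unfold B2 B4 psi2; ring

/-- The final rational-function identity behind the `X₀(5)` parametrisation, in the two free
parameters `d = x₂ - x₁` and `e = d² - B₄` (so that `B₆ = d e`). -/
theorem five_identity (d e : F) (hd : d ≠ 0) (he : e ≠ 0) :
    ((((d ^ 2 - e) ^ 2 + 4 * (-d * (d * e))) / (d * e)) ^ 2 - 24 * (d ^ 2 - e)) ^ 3 *
        (d ^ 3 / (d * e) - (d * e) / d ^ 3 - 11) =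
      (-(((d ^ 2 - e) ^ 2 + 4 * (-d * (d * e))) / (d * e)) ^ 2 * (-d * (d * e))
          - 8 * (d ^ 2 - e) ^ 3 - 27 * (d * e) ^ 2
          + 9 * (((d ^ 2 - e) ^ 2 + 4 * (-d * (d * e))) / (d * e)) * (d ^ 2 - e) * (d * e)) *
        ((d ^ 3 / (d * e) - (d * e) / d ^ 3 - 11) ^ 2
          + 10 * (d ^ 3 / (d * e) - (d * e) / d ^ 3 - 11) + 5) ^ 3 := by
  field_simp
  ring

end Param

open Param in
/-- WP3b (C2): a 5-cycle of the duplication map gives the `X₀(5)` parameter. -/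
theorem j_param_five {x₁ x₂ : F} (h1 : psi2 W x₁ ≠ 0) (h2 : psi2 W x₂ ≠ 0)
    (h3 : phi2 W x₁ = x₂ * psi2 W x₁) (h4 : phi2 W x₂ = x₁ * psi2 W x₂) (h5 : x₁ ≠ x₂) :
    ∃ t : F, W.c₄ ^ 3 * t = W.Δ * (t ^ 2 + 10 * t + 5) ^ 3 ∧
      t = (x₂ - x₁) ^ 3 / psi2 W x₁ + (x₁ - x₂) ^ 3 / psi2 W x₂ - 11 := by
  refine ⟨_, ?_, rfl⟩
  obtain ⟨d, rfl⟩ : ∃ d, x₂ = x₁ + d := ⟨x₂ - x₁, by ring⟩
  have hd : d ≠ 0 := by
    rintro rfl
    exact h5 (by ring)
  -- `B₈ = -d B₆`
  have h8 : psi3 W x₁ = -d * psi2 W x₁ := by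
    rw [psi3_eq, h3]; ring
  obtain ⟨e, he⟩ : ∃ e, B4 W x₁ = d ^ 2 - e := ⟨d ^ 2 - B4 W x₁, by ring⟩
  -- `B₆ = d e`
  have h6 : psi2 W x₁ = d * e := by
    have h := phi2_translate W x₁ d
    rw [h4, h8, he] at h
    have h' : d * (psi2 W x₁ - d * e) = 0 := by
      linear_combination h
    rcases mul_eq_zero.mp h' with h0 | h0
    · exact absurd h0 hd
    · linear_combination h0
  have he0 : e ≠ 0 := by
    rintro rfl
    exact h1 (by rw [h6]; ring)
  have hde : d * e ≠ 0 := mul_ne_zero hd he0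
  have hrel : B2 W x₁ * (d * e) = (d ^ 2 - e) ^ 2 + 4 * (-d * (d * e)) := by
    have := b_relation_translate W x₁
    rw [h8, h6, he] at this
    exact this
  have hB2 : B2 W x₁ = ((d ^ 2 - e) ^ 2 + 4 * (-d * (d * e))) / (d * e) := by
    rw [eq_div_iff hde]; exact hrel
  -- `P₂ B₆ = d⁶`
  have hP2 : psi2 W (x₁ + d) * (d * e) = d ^ 6 := by
    rw [psi2_translate W x₁ d, h6, he]
    linear_combination (d ^ 2) * hrel
  have hP2' : psi2 W (x₁ + d) = d ^ 6 / (d * e) := by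
    rw [eq_div_iff hde]; exact hP2
  have hc : W.c₄ = B2 W x₁ ^ 2 - 24 * B4 W x₁ := c4_eq W x₁
  have hΔ := Δ_eq_translate W x₁
  have key := five_identity d e hd he0
  have hd3 : d ^ 3 ≠ 0 := pow_ne_zero 3 hd
  have ht : (x₁ + d - x₁) ^ 3 / (d * e) + (x₁ - (x₁ + d)) ^ 3 / (d ^ 6 / (d * e)) - 11 =
      d ^ 3 / (d * e) - (d * e) / d ^ 3 - 11 := by
    field_simp
    ring
  rw [hc, hΔ, h8, hP2', h6, he, hB2, ht]
  exact key

end WP3

end Fermat.Agent.S51
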