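import Mathlib
import Fermat.Prelude.Def_FLTPrelim_GaloisRep
import Fermat.Prelude.Def_FLTPrelim_Modularity
import Fermat.Prelude.Def_FLTPrelim_ModularRep
import Fermat.Agent.S51.Torsion3
import Fermat.Agent.S51.Param

/-!
# S51: from a reducible mod-`n` Galois representation to rational data (`n = 3, 5`)

* `exists_generator_of_proper` : a proper nonzero subspace of a `ZMod n`-vector space with fewer
  than `n ^ 3` elements is a line.
* `exists_rat_of_fixed` : an element of `AlgebraicClosure ℚ` fixed by every automorphism is rational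
  (for the `ℚ`-algebra structure used in the Prelude).
* `rational_root_of_not_irreducible_three` : if the mod-`3` representation of `E/ℚ` is not
  irreducible then the `3`-division polynomial has a rational root.
-/

set_option autoImplicit false

open WeierstrassCurve WeierstrassCurve.Affine WeierstrassCurve.Affine.Point

namespace Fermat.Agent.S51.Galois

/-- A proper nonzero subspace of a small `ZMod n`-vector space is a line (all its elements are
natural multiples of one nonzero vector). -/
theorem exists_generator_of_proper {n : ℕ} [hn : Fact n.Prime] {V : Type*} [AddCommGroup V]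
    [Module (ZMod n) V] [Finite V] (hcard : Nat.card V < n ^ 3) (N : Submodule (ZMod n) V)
    (hbot : N ≠ ⊥) (htop : N ≠ ⊤) :
    ∃ v ∈ N, v ≠ 0 ∧ ∀ w ∈ N, ∃ k : ℕ, w = k • v := by
  classical
  have : Fintype V := Fintype.ofFinite V
  have hfin : Module.Finite (ZMod n) V := Module.Finite.of_finite
  have hc : Fintype.card V = n ^ Module.finrank (ZMod n) V := by
    have := Module.card_eq_pow_finrank (K := ZMod n) (V := V)
    rwa [ZMod.card] at this
  have hr : Module.finrank (ZMod n) V ≤ 2 := by
    by_contra h
    have h' : 3 ≤ Module.finrank (ZMod n) V := by omega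
    have h3 : n ^ 3 ≤ n ^ Module.finrank (ZMod n) V :=
      Nat.pow_le_pow_right hn.out.pos h'
    rw [Nat.card_eq_fintype_card, hc] at hcard
    omega
  have h1 : Module.finrank (ZMod n) N < Module.finrank (ZMod n) V := Submodule.finrank_lt htop
  have h2 : 0 < Module.finrank (ZMod n) N := by
    rw [Module.finrank_pos_iff_exists_ne_zero]
    obtain ⟨x, hxN, hx0⟩ := (Submodule.ne_bot_iff N).mp hbot
    exact ⟨⟨x, hxN⟩, fun h => hx0 (congrArg Subtype.val h)⟩
  have h3 : Module.finrank (ZMod n) N = 1 := by omega
  obtain ⟨v, hv0, hv⟩ := finrank_eq_one_iff'.mp h3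
  refine ⟨v.1, v.2, fun h => hv0 (Subtype.ext h), fun w hw => ?_⟩
  obtain ⟨c, hc⟩ := hv ⟨w, hw⟩
  refine ⟨c.val, ?_⟩
  have := congrArg Subtype.val hc
  simp only [Submodule.coe_smul] at this
  rw [← this, ← Nat.cast_smul_eq_nsmul (ZMod n), ZMod.natCast_zmod_val]

theorem isAlgClosure_rat :
    letI : Algebra ℚ (AlgebraicClosure ℚ) := DivisionRing.toRatAlgebra
    IsAlgClosure ℚ (AlgebraicClosure ℚ) := by
  have h : (DivisionRing.toRatAlgebra : Algebra ℚ (AlgebraicClosure ℚ)) =
      AlgebraicClosure.instAlgebra ℚ := Subsingleton.elim _ _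
  rw [h]
  infer_instance

/-- An element of `AlgebraicClosure ℚ` fixed by all automorphisms is rational. -/
theorem exists_rat_of_fixed (x : AlgebraicClosure ℚ)
    (h : ∀ σ : AlgebraicClosure ℚ ≃ₐ[ℚ] AlgebraicClosure ℚ, σ x = x) :
    ∃ q : ℚ, algebraMap ℚ (AlgebraicClosure ℚ) q = x := by
  have := isAlgClosure_rat
  have h1 := InfiniteGalois.fixedField_fixingSubgroup (k := ℚ) (K := AlgebraicClosure ℚ) ⊥
  have hx : x ∈ IntermediateField.fixedField
      ((⊥ : IntermediateField ℚ (AlgebraicClosure ℚ)).fixingSubgroup) := by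
    intro σ
    exact h σ
  rw [h1] at hx
  exact IntermediateField.mem_bot.mp hx

section maps

variable {A B : Type*} [CommRing A] [CommRing B] (f : A →+* B) (W : WeierstrassCurve A)

theorem psi2_map (x : A) : psi2 (W.map f) (f x) = f (psi2 W x) := by
  simp [psi2, WeierstrassCurve.map_b₂, WeierstrassCurve.map_b₄, WeierstrassCurve.map_b₆,
    map_ofNat]

theorem phi2_map (x : A) : phi2 (W.map f) (f x) = f (phi2 W x) := by
  simp [phi2, WeierstrassCurve.map_b₄, WeierstrassCurve.map_b₆, WeierstrassCurve.map_b₈,
    map_ofNat]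

theorem psi3_map (x : A) : psi3 (W.map f) (f x) = f (psi3 W x) := by
  simp [psi3, WeierstrassCurve.map_b₂, WeierstrassCurve.map_b₄, WeierstrassCurve.map_b₆,
    WeierstrassCurve.map_b₈, map_ofNat]

end maps

end Fermat.Agent.S51.Galois
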