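import Mathlib
import Fermat.Agent.S51.Defs
import Fermat.Agent.S51.Param

/-!
WP2 (algebraic nontriviality part) of the S51 development: over an algebraically closed field of
characteristic zero, a Weierstrass curve with `Δ ≠ 0` has
* a fixed point `x` of the duplication map `D = phi2/psi2` with `psi2 x ≠ 0`
  (the `x`-coordinate of a point of order `3`), and
* a genuine `2`-cycle `x₁ ↦ x₂ ↦ x₁` of `D` (the `x`-coordinates of `P`, `2P` for `P` of order `5`).
-/

set_option autoImplicit false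

open Polynomial

namespace Fermat.Agent.S51

section three

variable {K : Type*} [Field K] [IsAlgClosed K] [CharZero K]

theorem exists_three_cycle (W : WeierstrassCurve K) (hΔ : W.Δ ≠ 0) :
    ∃ x : K, psi2 W x ≠ 0 ∧ phi2 W x = x * psi2 W x := by
  have h3 : (3 : K) ≠ 0 := by norm_num
  have hdeg : W.Ψ₃.degree ≠ 0 := by
    rw [Polynomial.degree_eq_natDegree (by
      intro h0
      have := W.natDegree_Ψ₃ h3
      rw [h0] at this
      simp at this), W.natDegree_Ψ₃ h3]
    norm_num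
  obtain ⟨x, hx⟩ := IsAlgClosed.exists_root W.Ψ₃ hdeg
  have hpsi3 : psi3 W x = 0 := by
    have := hx
    rw [Polynomial.IsRoot.def, WeierstrassCurve.Ψ₃] at this
    simp only [eval_add, eval_mul, eval_pow, eval_X, eval_C, eval_ofNat] at this
    unfold psi3
    linear_combination this
  refine ⟨x, ?_, ?_⟩
  · intro h2
    have hB4 : Param.B4 W x = 0 := by
      have := Param.b_relation_translate W x
      rw [h2, hpsi3] at this
      have h' : Param.B4 W x ^ 2 = 0 := by linear_combination -this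
      exact pow_eq_zero_iff (by norm_num) |>.mp h'
    apply hΔ
    rw [Param.Δ_eq_translate W x, h2, hpsi3, hB4]
    ring
  · have := psi3_eq W x
    rw [hpsi3] at this
    linear_combination this

end three

section five

variable {K : Type*} [Field K]

/-- Tate normal form `y² + (1-b)xy - by = x³ - bx²`, on which `(0,0)` has order `5`. -/
def tateCurve (b : K) : WeierstrassCurve K := ⟨1 - b, -b, -b, 0, 0⟩

theorem tateCurve_b₂ (b : K) : (tateCurve b).b₂ = b ^ 2 - 6 * b + 1 := by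
  simp only [tateCurve, WeierstrassCurve.b₂]; ring

theorem tateCurve_b₄ (b : K) : (tateCurve b).b₄ = b ^ 2 - b := by
  simp only [tateCurve, WeierstrassCurve.b₄]; ring

theorem tateCurve_b₆ (b : K) : (tateCurve b).b₆ = b ^ 2 := by
  simp only [tateCurve, WeierstrassCurve.b₆]; ring

theorem tateCurve_b₈ (b : K) : (tateCurve b).b₈ = -b ^ 3 := by
  simp only [tateCurve, WeierstrassCurve.b₈]; ring

theorem tateCurve_c₄ (b : K) :
    (tateCurve b).c₄ = b ^ 4 - 12 * b ^ 3 + 14 * b ^ 2 + 12 * b + 1 := by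
  rw [WeierstrassCurve.c₄, tateCurve_b₂, tateCurve_b₄]; ring

theorem tateCurve_Δ (b : K) : (tateCurve b).Δ = b ^ 5 * (b ^ 2 - 11 * b - 1) := by
  rw [WeierstrassCurve.Δ, tateCurve_b₂, tateCurve_b₄, tateCurve_b₆, tateCurve_b₈]; ring

/-- the degree-12 polynomial whose roots `b` give `j (tateCurve b) = j`. -/
noncomputable def tatePoly (j : K) : K[X] :=
  (X ^ 4 - 12 * X ^ 3 + 14 * X ^ 2 + 12 * X + 1) ^ 3 - C j * (X ^ 5 * (X ^ 2 - 11 * X - 1))

theorem tatePoly_natDegree (j : K) : (tatePoly j).natDegree = 12 := by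
  unfold tatePoly
  compute_degree!

variable [IsAlgClosed K] [CharZero K]

theorem exists_five_cycle (W : WeierstrassCurve K) (hΔ : W.Δ ≠ 0) :
    ∃ x₁ x₂ : K, psi2 W x₁ ≠ 0 ∧ psi2 W x₂ ≠ 0 ∧ phi2 W x₁ = x₂ * psi2 W x₁ ∧
      phi2 W x₂ = x₁ * psi2 W x₂ ∧ x₁ ≠ x₂ := by
  have : W.IsElliptic := ⟨isUnit_iff_ne_zero.mpr hΔ⟩
  have hdeg : (tatePoly W.j).degree ≠ 0 := by
    rw [Polynomial.degree_eq_natDegree (by
      intro h0
      have := tatePoly_natDegree W.j
      rw [h0] at this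
      simp at this), tatePoly_natDegree]
    norm_num
  obtain ⟨b, hb⟩ := IsAlgClosed.exists_root (tatePoly W.j) hdeg
  have hroot : (b ^ 4 - 12 * b ^ 3 + 14 * b ^ 2 + 12 * b + 1) ^ 3 =
      W.j * (b ^ 5 * (b ^ 2 - 11 * b - 1)) := by
    have := hb
    rw [Polynomial.IsRoot.def, tatePoly] at this
    simp only [eval_add, eval_sub, eval_mul, eval_pow, eval_X, eval_C, eval_ofNat,
      eval_one] at this
    linear_combination this
  have hb0 : b ≠ 0 := by
    rintro rfl
    norm_num at hroot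
  have hD : b ^ 2 - 11 * b - 1 ≠ 0 := by
    intro hD
    rw [hD] at hroot
    have hc : b ^ 4 - 12 * b ^ 3 + 14 * b ^ 2 + 12 * b + 1 = 0 := by
      have : (b ^ 4 - 12 * b ^ 3 + 14 * b ^ 2 + 12 * b + 1) ^ 3 = 0 := by
        rw [hroot]; ring
      exact pow_eq_zero_iff (by norm_num) |>.mp this
    have h5 : (5 : K) * b ^ 2 = 0 := by
      linear_combination hc - (b ^ 2 - b - 1) * hD
    have h5' : (5 : K) ≠ 0 := by norm_num
    rcases mul_eq_zero.mp h5 with h | h
    · exact h5' h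
    · exact hb0 (pow_eq_zero_iff (by norm_num) |>.mp h)
  have hTΔ : (tateCurve b).Δ ≠ 0 := by
    rw [tateCurve_Δ]
    exact mul_ne_zero (pow_ne_zero _ hb0) hD
  have : (tateCurve b).IsElliptic := ⟨isUnit_iff_ne_zero.mpr hTΔ⟩
  have hj : W.j = (tateCurve b).j := by
    have h1 : (tateCurve b).j * (tateCurve b).Δ = (tateCurve b).c₄ ^ 3 := by
      rw [WeierstrassCurve.j, ← WeierstrassCurve.coe_Δ']
      rw [mul_comm, ← mul_assoc, Units.mul_inv, one_mul]
    rw [tateCurve_Δ, tateCurve_c₄, hroot] at h1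
    have h2 : b ^ 5 * (b ^ 2 - 11 * b - 1) ≠ 0 := mul_ne_zero (pow_ne_zero _ hb0) hD
    exact (mul_right_cancel₀ h2 h1).symm
  obtain ⟨Ch, hCh⟩ := WeierstrassCurve.exists_variableChange_of_j_eq W (tateCurve b) hj
  set r : K := Ch.r with hr
  set u : K := (Ch.u : K) with hu
  set v : K := ((Ch.u⁻¹ : Kˣ) : K) with hv
  have huv : u * v = 1 := by rw [hu, hv]; exact Units.mul_inv _
  have hu0 : u ≠ 0 := by rw [hu]; exact Units.ne_zero _
  have e2 : (tateCurve b).b₂ = v ^ 2 * Param.B2 W r := by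
    rw [← hCh, WeierstrassCurve.variableChange_b₂]; rfl
  have e4 : (tateCurve b).b₄ = v ^ 4 * Param.B4 W r := by
    rw [← hCh, WeierstrassCurve.variableChange_b₄]; rfl
  have e6 : (tateCurve b).b₆ = v ^ 6 * psi2 W r := by
    rw [← hCh, WeierstrassCurve.variableChange_b₆]; unfold psi2; ring
  have e8 : (tateCurve b).b₈ = v ^ 8 * psi3 W r := by
    rw [← hCh, WeierstrassCurve.variableChange_b₈]; unfold psi3; ring
  rw [tateCurve_b₂] at e2
  rw [tateCurve_b₄] at e4
  rw [tateCurve_b₆] at e6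
  rw [tateCurve_b₈] at e8
  have f2 : Param.B2 W r = u ^ 2 * (b ^ 2 - 6 * b + 1) := by
    rw [e2]
    linear_combination (-(Param.B2 W r) * (u * v + 1)) * huv
  have f4 : Param.B4 W r = u ^ 4 * (b ^ 2 - b) := by
    rw [e4]
    have : (u * v) ^ 4 = 1 := by rw [huv]; ring
    linear_combination (-(Param.B4 W r)) * this
  have f6 : psi2 W r = u ^ 6 * b ^ 2 := by
    rw [e6]
    have : (u * v) ^ 6 = 1 := by rw [huv]; ring
    linear_combination (-(psi2 W r)) * this
  have f8 : psi3 W r = -(u ^ 8 * b ^ 3) := by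
    have : (u * v) ^ 8 = 1 := by rw [huv]; ring
    linear_combination (-(psi3 W r)) * this - u ^ 8 * e8
  have g2 : psi2 W (r + u ^ 2 * b) = u ^ 6 * b ^ 4 := by
    rw [Param.psi2_translate, f2, f4, f6]; ring
  have g3 : phi2 W (r + u ^ 2 * b) - r * psi2 W (r + u ^ 2 * b) = 0 := by
    rw [Param.phi2_translate, f4, f6, f8]; ring
  refine ⟨r, r + u ^ 2 * b, ?_, ?_, ?_, ?_, ?_⟩
  · rw [f6]; exact mul_ne_zero (pow_ne_zero _ hu0) (pow_ne_zero _ hb0)
  · rw [g2]; exact mul_ne_zero (pow_ne_zero _ hu0) (pow_ne_zero _ hb0)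
  · have := psi3_eq W r
    rw [f8, f6] at this
    rw [f6]
    linear_combination this
  · linear_combination g3
  · intro h
    have : u ^ 2 * b = 0 := by linear_combination -h
    exact mul_ne_zero (pow_ne_zero _ hu0) hb0 this

end five

end Fermat.Agent.S51
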