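import Fermat.Agent.S51.Torsion3

/-!
# S51 helpers: `5`-torsion of a Weierstrass curve via the duplication map on the `x`-line

With `dblX x = Φ₂(x)/ψ₂²(x)` (the `x`-coordinate of `2P`):
* `add_self_some` : `P + P = (dblX x, _)` for a point which is not `2`-torsion.
* `five_torsion_data` : `5P = 0`, `P = (x, y)` ⟹ `ψ₂²(x) ≠ 0`, `ψ₂²(dblX x) ≠ 0`,
  `dblX (dblX x) = x`, `dblX x ≠ x`.
* `five_nsmul_eq_zero_of_data` : the converse.
* `psi5_eq_zero_of_five_nsmul` : the `x`-coordinate of a nonzero `5`-torsion point is a root of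
  `ψ₅ = preΨ₄ ψ₂⁴ - ψ₃³` (Mathlib's `preΨ' 5`).
* `exists_five_torsion` : existence of a nonzero `5`-torsion point (alg. closed, `Δ ≠ 0`).
* `five_torsion_finite` : the `5`-torsion is finite with at most `25` points.
-/

set_option autoImplicit false

open WeierstrassCurve WeierstrassCurve.Affine Polynomial

namespace Fermat.Agent.S51

section Part0
section Identities

variable {R : Type*} [CommRing R] (b₂ b₄ b₆ b₈ x : R)

/-- `ψ₂²(2P) ψ₂⁶ = preΨ₄²` on the `x`-line. -/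
theorem identity_F2 (hb : 4 * b₈ = b₂ * b₆ - b₄ ^ 2) (f g : R)
    (hf : f = 4 * x ^ 3 + b₂ * x ^ 2 + 2 * b₄ * x + b₆)
    (hg : g = x ^ 4 - b₄ * x ^ 2 - 2 * b₆ * x - b₈) :
    4 * g ^ 3 + b₂ * g ^ 2 * f + 2 * b₄ * g * f ^ 2 + b₆ * f ^ 3 =
    (2 * x ^ 6 + b₂ * x ^ 5 + 5 * b₄ * x ^ 4 + 10 * b₆ * x ^ 3 + 10 * b₈ * x ^ 2 +
      (b₂ * b₈ - b₄ * b₆) * x + (b₄ * b₈ - b₆ ^ 2)) ^ 2 := by
  subst hf hg
  linear_combination (-b₂^2 * x^6 - 6 * b₂ * b₄ * x^5 - 7 * b₂ * b₆ * x^4 - 4 * b₂ * b₈ * x^3 - 8 * b₂ * x^7 - 8 * b₄^2 * x^4 - 16 * b₄ * b₆ * x^3 - 8 * b₄ * b₈ * x^2 - 28 * b₄ * x^6 - 7 * b₆^2 * x^2 - 6 * b₆ * b₈ * x - 38 * b₆ * x^5 - b₈^2 - 22 * b₈ * x^4 - 13 * x^8) * hb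

/-- The numerator of `x(4P) - x(P)` factors as `-ψ₃ ψ₅`. -/
theorem identity_G2 (hb : 4 * b₈ = b₂ * b₆ - b₄ ^ 2) (f g p3 p4 : R)
    (hf : f = 4 * x ^ 3 + b₂ * x ^ 2 + 2 * b₄ * x + b₆)
    (hg : g = x ^ 4 - b₄ * x ^ 2 - 2 * b₆ * x - b₈)
    (h3 : p3 = 3 * x ^ 4 + b₂ * x ^ 3 + 3 * b₄ * x ^ 2 + 3 * b₆ * x + b₈)
    (h4 : p4 = 2 * x ^ 6 + b₂ * x ^ 5 + 5 * b₄ * x ^ 4 + 10 * b₆ * x ^ 3 + 10 * b₈ * x ^ 2 +
      (b₂ * b₈ - b₄ * b₆) * x + (b₄ * b₈ - b₆ ^ 2)) :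
    (g ^ 4 - b₄ * g ^ 2 * f ^ 2 - 2 * b₆ * g * f ^ 3 - b₈ * f ^ 4)
      - x * f * (4 * g ^ 3 + b₂ * g ^ 2 * f + 2 * b₄ * g * f ^ 2 + b₆ * f ^ 3) =
    -(p3 * (p4 * f ^ 2 - p3 ^ 3)) := by
  subst hf hg h3 h4
  linear_combination (b₂^3 * x^9 + 7 * b₂^2 * b₄ * x^8 + 5 * b₂^2 * b₆ * x^7 + b₂^2 * b₈ * x^6 + 11 * b₂^2 * x^10 + 16 * b₂ * b₄^2 * x^7 + 22 * b₂ * b₄ * b₆ * x^6 + 4 * b₂ * b₄ * b₈ * x^5 + 52 * b₂ * b₄ * x^9 + 7 * b₂ * b₆^2 * x^5 + 2 * b₂ * b₆ * b₈ * x^4 + 38 * b₂ * b₆ * x^8 + 8 * b₂ * b₈ * x^7 + 40 * b₂ * x^11 + 12 * b₄^3 * x^6 + 24 * b₄^2 * b₆ * x^5 + 4 * b₄^2 * b₈ * x^4 + 60 * b₄^2 * x^8 + 15 * b₄ * b₆^2 * x^4 + 4 * b₄ * b₆ * b₈ * x^3 + 84 * b₄ * b₆ * x^7 + 16 * b₄ * b₈ * x^6 + 96 * b₄ * x^10 + 3 * b₆^3 * x^3 + b₆^2 * b₈ * x^2 + 27 * b₆^2 * x^6 + 8 * b₆ * b₈ * x^5 + 72 * b₆ * x^9 + 16 * b₈ * x^8 + 48 * x^12) * hb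

end Identities
end Part0

section Part1
variable {F : Type*} [Field F] {W : Affine F}

lemma some_congr_X {x x' y : F} (hx : x = x') (h : W.Nonsingular x y) :
    Point.some x y h = Point.some x' y (hx ▸ h) := by
  subst hx; rfl

/-- the `x`-coordinate of a point (`0` for the point at infinity). -/
def xOf : W.Point → F
  | .zero => 0
  | .some x _ _ => x

@[simp] lemma xOf_some {x y : F} (h : W.Nonsingular x y) : xOf (Point.some x y h) = x := rfl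

lemma xOf_neg (P : W.Point) : xOf (-P) = xOf P := by
  rcases P with _ | ⟨x, y, h⟩
  · rfl
  · rfl

lemma dblX_eq_self_iff {x : F} (hf : psi2 W x ≠ 0) : dblX W x = x ↔ psi3 W x = 0 := by
  rw [dblX, div_eq_iff hf, ← x_mul_psi2_sub_phi2, sub_eq_zero, eq_comm]

variable [DecidableEq F]

/-- Doubling a point which is not `2`-torsion. -/
lemma add_self_some {x y : F} (h : W.Nonsingular x y) (hy : y ≠ W.negY x y) :
    ∃ (y' : F) (h' : W.Nonsingular (dblX W x) y'),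
      Point.some x y h + Point.some x y h = Point.some (dblX W x) y' h' := by
  refine ⟨W.addY x x y (W.slope x x y y),
    (addX_self_eq h.1 hy) ▸ nonsingular_add h h fun hxy => hy hxy.right, ?_⟩
  rw [Point.add_self_of_Y_ne hy]
  exact some_congr_X (addX_self_eq h.1 hy) _

/-- If `5P = 0` for an affine point `P = (x, y)` then `x` is a point of exact period `2` of the
duplication map `dblX`, with nonvanishing denominators. -/
theorem five_torsion_data {x y : F} (h : W.Nonsingular x y)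
    (h5 : (5 : ℕ) • Point.some x y h = 0) :
    psi2 W x ≠ 0 ∧ psi2 W (dblX W x) ≠ 0 ∧ dblX W (dblX W x) = x ∧ dblX W x ≠ x := by
  set P := Point.some x y h with hP
  have hP0 : P ≠ 0 := Point.some_ne_zero h
  have e5 : (5 : ℕ) • P = (P + P) + (P + P) + P := by abel
  rw [e5] at h5
  by_cases hy : y = W.negY x y
  · exfalso
    rw [hP, Point.add_self_of_Y_eq hy, zero_add, zero_add] at h5
    exact Point.some_ne_zero h h5
  obtain ⟨y₂, h₂, hPP⟩ := add_self_some h hy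
  rw [← hP] at hPP
  rw [hPP] at h5
  by_cases hy₂ : y₂ = W.negY (dblX W x) y₂
  · exfalso
    rw [Point.add_self_of_Y_eq hy₂, zero_add] at h5
    exact hP0 h5
  obtain ⟨y₄, h₄, h4P⟩ := add_self_some h₂ hy₂
  rw [h4P, add_eq_zero_iff_eq_neg, hP, Point.neg_some] at h5
  have hx4 : dblX W (dblX W x) = x := ((Point.some.injEq ..).mp h5).1
  refine ⟨(psi2_ne_zero_iff h.1).mpr hy, (psi2_ne_zero_iff h₂.1).mpr hy₂, hx4, ?_⟩
  intro hx2
  rcases (Point.X_eq_iff (h₁ := h₂) (h₂ := h)).mp hx2 with h2P | h2P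
  · rw [← hPP, ← hP] at h2P
    exact hP0 (add_eq_left.mp h2P)
  · rw [← hPP, ← hP] at h2P
    -- `2P = -P`, so `3P = 0`; together with `4P = -P` we get `P = 0`
    have h4 : (P + P) + (P + P) = -P := by rw [hPP, h4P, h5, hP, Point.neg_some]
    rw [h2P] at h4
    have : P = 0 := by
      have h' : -P + -P = -P := h4
      exact neg_eq_zero.mp (add_eq_left.mp h')
    exact hP0 this

/-- Conversely, a point of exact period `2` of the duplication map gives a `5`-torsion point. -/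
theorem five_nsmul_eq_zero_of_data (h2 : (2 : F) ≠ 0) {x y : F} (h : W.Nonsingular x y)
    (hf : psi2 W x ≠ 0) (hf₂ : psi2 W (dblX W x) ≠ 0) (hx4 : dblX W (dblX W x) = x)
    (hx2 : dblX W x ≠ x) : (5 : ℕ) • Point.some x y h = 0 := by
  set P := Point.some x y h with hP
  have hP0 : P ≠ 0 := Point.some_ne_zero h
  have e5 : (5 : ℕ) • P = (P + P) + (P + P) + P := by abel
  have hy : y ≠ W.negY x y := (psi2_ne_zero_iff h.1).mp hf
  obtain ⟨y₂, h₂, hPP⟩ := add_self_some h hy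
  rw [← hP] at hPP
  have hy₂ : y₂ ≠ W.negY (dblX W x) y₂ := (psi2_ne_zero_iff h₂.1).mp hf₂
  obtain ⟨y₄, h₄, h4P⟩ := add_self_some h₂ hy₂
  rw [e5, hPP, h4P, add_eq_zero_iff_eq_neg]
  rcases (Point.X_eq_iff (h₁ := h₄) (h₂ := h)).mp hx4 with h4 | h4
  · -- `4P = P` means `3P = 0`, so `ψ₃(x) = 0`, i.e. `dblX x = x`
    exfalso
    have h3 : (3 : ℕ) • P = 0 := by
      have e3 : (3 : ℕ) • P = (P + P) + (P + P) - P := by abel
      rw [e3, hPP, h4P, h4, hP, sub_self]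
    exact hx2 ((dblX_eq_self_iff hf).mpr ((three_nsmul_some_eq_zero_iff h2 h).mp h3))
  · exact h4
end Part1

section Part2
variable {F : Type*} [Field F] (W : Affine F)

/-- `preΨ₄(x)`. -/
def pre4 (x : F) : F :=
  2 * x ^ 6 + W.b₂ * x ^ 5 + 5 * W.b₄ * x ^ 4 + 10 * W.b₆ * x ^ 3 + 10 * W.b₈ * x ^ 2 +
    (W.b₂ * W.b₈ - W.b₄ * W.b₆) * x + (W.b₄ * W.b₈ - W.b₆ ^ 2)

/-- `ψ₅(x) = preΨ₄ ψ₂⁴ - ψ₃³`. -/
def psi5 (x : F) : F := pre4 W x * psi2 W x ^ 2 - psi3 W x ^ 3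

lemma eval_preΨ₄ (x : F) : (WeierstrassCurve.preΨ₄ W).eval x = pre4 W x := by
  simp [WeierstrassCurve.preΨ₄, pre4]

lemma eval_preΨ'_five (x : F) : (WeierstrassCurve.preΨ' W 5).eval x = psi5 W x := by
  have h := WeierstrassCurve.preΨ'_odd W 0
  simp only [zero_add, Nat.reduceAdd, Nat.reduceMul, preΨ'_four, preΨ'_two, one_pow,
    mul_one, Even.zero, if_true, preΨ'_one, preΨ'_three, one_mul] at h
  rw [show (5 : ℕ) = 2 * 2 + 1 from rfl, h]
  simp [eval_preΨ₄, eval_Ψ₂Sq, eval_Ψ₃, psi5]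

variable {W}

lemma psi2_pow_mul_phi2_dblX {x : F} (hf : psi2 W x ≠ 0) :
    psi2 W x ^ 4 * phi2 W (dblX W x) =
      phi2 W x ^ 4 - W.b₄ * phi2 W x ^ 2 * psi2 W x ^ 2 - 2 * W.b₆ * phi2 W x * psi2 W x ^ 3
        - W.b₈ * psi2 W x ^ 4 := by
  rw [dblX]
  generalize psi2 W x = f at *
  generalize phi2 W x = g
  rw [phi2]
  field_simp

lemma psi2_pow_mul_psi2_dblX {x : F} (hf : psi2 W x ≠ 0) :
    psi2 W x ^ 3 * psi2 W (dblX W x) =
      4 * phi2 W x ^ 3 + W.b₂ * phi2 W x ^ 2 * psi2 W x + 2 * W.b₄ * phi2 W x * psi2 W x ^ 2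
        + W.b₆ * psi2 W x ^ 3 := by
  rw [dblX]
  generalize phi2 W x = g
  generalize psi2 W x = f at *
  rw [psi2]
  field_simp

/-- `ψ₂(x)⁶ ψ₂(x(2P)) = preΨ₄(x)²`. -/
lemma psi2_pow_mul_psi2_dblX_eq_sq {x : F} (hf : psi2 W x ≠ 0) :
    psi2 W x ^ 3 * psi2 W (dblX W x) = pre4 W x ^ 2 := by
  rw [psi2_pow_mul_psi2_dblX hf]
  exact identity_F2 W.b₂ W.b₄ W.b₆ W.b₈ x W.b_relation _ _ rfl rfl

/-- The key relation: `ψ₂⁴ (Φ₂(x₂) - x ψ₂(x₂)) = -ψ₃ ψ₅` with `x₂ = x(2P)`. -/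
lemma key_relation {x : F} (hf : psi2 W x ≠ 0) :
    psi2 W x ^ 4 * (phi2 W (dblX W x) - x * psi2 W (dblX W x)) = -(psi3 W x * psi5 W x) := by
  have h1 := psi2_pow_mul_phi2_dblX hf
  have h2 := psi2_pow_mul_psi2_dblX hf
  have h3 := identity_G2 W.b₂ W.b₄ W.b₆ W.b₈ x W.b_relation (psi2 W x) (phi2 W x) (psi3 W x)
    (pre4 W x) rfl rfl rfl rfl
  rw [psi5, ← h3]
  linear_combination h1 - x * psi2 W x * h2
end Part2

section Part3
variable {F : Type*} [Field F] {W : Affine F} [DecidableEq F]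

omit [DecidableEq F] in
lemma dblX_eq_iff {x z : F} (hf : psi2 W x ≠ 0) : dblX W x = z ↔ phi2 W x = z * psi2 W x :=
  div_eq_iff hf

/-- The `x`-coordinate of a nonzero `5`-torsion point is a root of `ψ₅`. -/
theorem psi5_eq_zero_of_five_nsmul {x y : F} (h : W.Nonsingular x y)
    (h5 : (5 : ℕ) • Point.some x y h = 0) : psi5 W x = 0 := by
  obtain ⟨hf, hf₂, hx4, hx2⟩ := five_torsion_data h h5
  have hk := key_relation hf
  rw [dblX_eq_iff hf₂] at hx4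
  rw [hx4, sub_self, mul_zero, eq_comm, neg_eq_zero, mul_eq_zero] at hk
  rcases hk with hk | hk
  · exact absurd ((dblX_eq_self_iff hf).mpr hk) hx2
  · exact hk

/-- Over an algebraically closed field of characteristic `≠ 2, 5`, an elliptic curve has a nonzero
point killed by `5`. -/
theorem exists_five_torsion [IsAlgClosed F] (h2 : (2 : F) ≠ 0) (h5 : (5 : F) ≠ 0)
    (hΔ : W.Δ ≠ 0) : ∃ P : W.Point, P ≠ 0 ∧ (5 : ℕ) • P = 0 := by
  have h5' : ((5 : ℕ) : F) ≠ 0 := by exact_mod_cast h5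
  obtain ⟨x, hx⟩ := IsAlgClosed.exists_root (WeierstrassCurve.preΨ' W 5) (by
    rw [degree_eq_natDegree (WeierstrassCurve.preΨ'_ne_zero W h5'),
      WeierstrassCurve.natDegree_preΨ' W h5']
    norm_num)
  rw [IsRoot.def, eval_preΨ'_five] at hx
  obtain ⟨y, hy⟩ := exists_equation W x
  have h : W.Nonsingular x y := (equation_iff_nonsingular_of_Δ_ne_zero hΔ).mp hy
  -- `ψ₂(x) ≠ 0`
  have hf : psi2 W x ≠ 0 := by
    intro hf
    have hy' : y = W.negY x y := by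
      by_contra hne
      exact (psi2_ne_zero_iff hy).mpr hne hf
    have h3 : psi3 W x ≠ 0 := psi3_ne_zero_of_Y_eq h2 h hy'
    rw [psi5, hf] at hx
    apply h3
    have : psi3 W x ^ 3 = 0 := by linear_combination -hx
    exact pow_eq_zero_iff (by norm_num) |>.mp this
  have hyne : y ≠ W.negY x y := (psi2_ne_zero_iff hy).mp hf
  obtain ⟨y₂, h₂, hPP⟩ := add_self_some h hyne
  have hsq := psi2_pow_mul_psi2_dblX_eq_sq hf
  -- `ψ₃(x) = 0` would force `ψ₂(x₂) = ψ₂(x) ≠ 0` and `preΨ₄(x) = 0`, contradiction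
  have h3 : psi3 W x ≠ 0 := by
    intro h3
    have hx2 : dblX W x = x := (dblX_eq_self_iff hf).mpr h3
    rw [psi5, h3] at hx
    have hp4 : pre4 W x = 0 := by
      have : pre4 W x * psi2 W x ^ 2 = 0 := by linear_combination hx
      rcases mul_eq_zero.mp this with h | h
      · exact h
      · exact absurd (pow_eq_zero_iff (by norm_num) |>.mp h) hf
    rw [hx2, hp4] at hsq
    have : psi2 W x ^ 4 = 0 := by linear_combination hsq
    exact hf (pow_eq_zero_iff (by norm_num) |>.mp this)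
  -- `ψ₂(x₂) ≠ 0`
  have hf₂ : psi2 W (dblX W x) ≠ 0 := by
    intro hf₂
    rw [hf₂, mul_zero] at hsq
    have hp4 : pre4 W x = 0 := pow_eq_zero_iff (by norm_num) |>.mp hsq.symm
    rw [psi5, hp4] at hx
    apply h3
    have : psi3 W x ^ 3 = 0 := by linear_combination -hx
    exact pow_eq_zero_iff (by norm_num) |>.mp this
  have hk := key_relation hf
  rw [hx, mul_zero, neg_zero, mul_eq_zero] at hk
  have hx4 : dblX W (dblX W x) = x := by
    rcases hk with hk | hk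
    · exact absurd (pow_eq_zero_iff (by norm_num) |>.mp hk) hf
    · rw [dblX_eq_iff hf₂]
      linear_combination hk
  have hx2 : dblX W x ≠ x := fun hx2 => h3 ((dblX_eq_self_iff hf).mp hx2)
  exact ⟨Point.some x y h, Point.some_ne_zero h, five_nsmul_eq_zero_of_data h2 h hf hf₂ hx4 hx2⟩

/-- The `5`-torsion of a Weierstrass curve (characteristic `≠ 5`) has at most `25` points. -/
theorem five_torsion_finite (h5 : (5 : F) ≠ 0) :
    {P : W.Point | (5 : ℕ) • P = 0}.Finite ∧ {P : W.Point | (5 : ℕ) • P = 0}.ncard ≤ 25 := by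
  have h5' : ((5 : ℕ) : F) ≠ 0 := by exact_mod_cast h5
  have := finite_and_ncard_le_of_forall_eval_eq_zero (W := W) (WeierstrassCurve.preΨ' W 5)
    (WeierstrassCurve.preΨ'_ne_zero W h5') {P : W.Point | (5 : ℕ) • P = 0} (by
      intro x y h hP
      rw [eval_preΨ'_five]
      exact psi5_eq_zero_of_five_nsmul h hP)
  rw [WeierstrassCurve.natDegree_preΨ' W h5'] at this
  exact this
end Part3

end Fermat.Agent.S51
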