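import Fermat.Statements.S51
import Fermat.Agent.S51.Param
import Fermat.Agent.S51.NotSemistable
import Fermat.Agent.S51.X015

/-!
(R5) of the S51 development: the final wiring.  Given the two Galois-descent statements
(`H3`, `H5`: a reducible mod-`3` resp. mod-`5` representation yields rational data) and the
rank-zero statement for `y² = x(x+9)(x-16)`, a semistable model has an irreducible mod-`3` or
mod-`5` representation.
-/

set_option autoImplicit false

open WeierstrassCurve WeierstrassCurve.Affine WeierstrassCurve.Affine.Point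

namespace Fermat.Agent.S51.Wiring

theorem result_of
    (H3 : ∀ E : WeierstrassCurve.Affine ℚ, E.Δ ≠ 0 →
      ¬ GaloisRepIsIrreducible (K := AlgebraicClosure ℚ) ℚ E 3 →
      ∃ x : ℚ, psi2 E x ≠ 0 ∧ phi2 E x = x * psi2 E x)
    (H5 : ∀ E : WeierstrassCurve.Affine ℚ, E.Δ ≠ 0 →
      ¬ GaloisRepIsIrreducible (K := AlgebraicClosure ℚ) ℚ E 5 →
      ∃ t : ℚ, E.c₄ ^ 3 * t = E.Δ * (t ^ 2 + 10 * t + 5) ^ 3)
    (hrank : ∀ x y : ℚ, y ^ 2 = x * (x + 9) * (x - 16) →
      x = 0 ∨ x = -9 ∨ x = 16 ∨ x = 36 ∨ x = -4)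
    (W : WeierstrassCurve ℤ) (hΔ : W.Δ ≠ 0) (hW : W.IsSemistableModel) :
    W.ModRepIsIrreducible 3 ∨ W.ModRepIsIrreducible 5 := by
  by_contra hcon
  rw [not_or] at hcon
  obtain ⟨h3, h5⟩ := hcon
  set E : WeierstrassCurve.Affine ℚ := W.map (Int.castRingHom ℚ) with hE
  have hEΔ : E.Δ = (W.Δ : ℚ) := by
    rw [hE, WeierstrassCurve.map_Δ]; rfl
  have hEc : E.c₄ = (W.c₄ : ℚ) := by
    rw [hE, WeierstrassCurve.map_c₄]; rfl
  have hΔ' : E.Δ ≠ 0 := by
    rw [hEΔ]; exact_mod_cast hΔ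
  have h3' : ¬ GaloisRepIsIrreducible (K := AlgebraicClosure ℚ) ℚ E 3 := h3
  have h5' : ¬ GaloisRepIsIrreducible (K := AlgebraicClosure ℚ) ℚ E 5 := h5
  obtain ⟨x, hx1, hx2⟩ := H3 E hΔ' h3'
  obtain ⟨t, ht⟩ := H5 E hΔ' h5'
  obtain ⟨s, hs, -⟩ := j_param_three E hx1 hx2
  have hs0 : s ≠ 0 := by
    rintro rfl
    have : E.Δ * 729 = 0 := by linear_combination -hs
    rcases mul_eq_zero.mp this with h | h
    · exact hΔ' h
    · norm_num at h
  have ht0 : t ≠ 0 := by
    rintro rfl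
    have : E.Δ * 125 = 0 := by linear_combination -ht
    rcases mul_eq_zero.mp this with h | h
    · exact hΔ' h
    · norm_num at h
  have hst : (s + 27) * (s + 3) ^ 3 * t = (t ^ 2 + 10 * t + 5) ^ 3 * s := by
    have : E.Δ * ((s + 27) * (s + 3) ^ 3 * t - (t ^ 2 + 10 * t + 5) ^ 3 * s) = 0 := by
      linear_combination s * ht - t * hs
    rcases mul_eq_zero.mp this with h | h
    · exact absurd h hΔ'
    · linear_combination h
  have htv := X015.t_values hrank s t hs0 ht0 hst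
  rw [hEΔ, hEc] at ht
  exact not_semistable_of_j W hΔ hW t htv ht

end Fermat.Agent.S51.Wiring
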